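/-
The "addition and subtraction" relation on x-coordinates (Kummer line) of a Weierstrass curve
over a field, in projective form: for all points `P`, `Q`,
`(x(P+Q) x(P-Q) : x(P+Q) + x(P-Q) : 1)` is given by the quadratic forms `F0`, `F1`, `F2`.
-/
import Mathlib.AlgebraicGeometry.EllipticCurve.Affine.Point
import Mathlib.Tactic

set_option autoImplicit false

namespace Fermat.Agent.EC

open WeierstrassCurve WeierstrassCurve.Affine WeierstrassCurve.Affine.Point

section Forms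

variable {R : Type*} [CommRing R]

/-- first quadratic form: product of the two x-coordinates (in terms of the symmetric functions
`s = X₁X₂`, `t = X₁Z₂ + X₂Z₁`, `u = Z₁Z₂`). -/
def F0 (b₄ b₆ b₈ s t u : R) : R := s ^ 2 - b₄ * s * u - b₆ * t * u - b₈ * u ^ 2

/-- second quadratic form: sum of the two x-coordinates. -/
def F1 (b₂ b₄ b₆ s t u : R) : R := 2 * t * s + b₂ * s * u + b₄ * t * u + b₆ * u ^ 2

/-- third quadratic form. -/
def F2 (s t u : R) : R := t ^ 2 - 4 * s * u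

end Forms

/-- Abstract Kummer structure on an abelian group `G`: a pair of functions `X, Z : G → K`
(homogeneous coordinates of the `x`-coordinate), satisfying the addition-subtraction relation. -/
structure IsKummer {K G : Type*} [Field K] [AddCommGroup G] (b₂ b₄ b₆ b₈ : K) (X Z : G → K) :
    Prop where
  ne_zero : ∀ P, X P ≠ 0 ∨ Z P ≠ 0
  Z_zero : Z 0 = 0
  X_neg : ∀ P, X (-P) = X P
  Z_neg : ∀ P, Z (-P) = Z P
  rel : ∀ P Q, ∃ μ : K, μ ≠ 0 ∧
    X (P + Q) * X (P - Q) =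
      μ * F0 b₄ b₆ b₈ (X P * X Q) (X P * Z Q + X Q * Z P) (Z P * Z Q) ∧
    X (P + Q) * Z (P - Q) + X (P - Q) * Z (P + Q) =
      μ * F1 b₂ b₄ b₆ (X P * X Q) (X P * Z Q + X Q * Z P) (Z P * Z Q) ∧
    Z (P + Q) * Z (P - Q) =
      μ * F2 (X P * X Q) (X P * Z Q + X Q * Z P) (Z P * Z Q)

section Curve

variable {F : Type*} [Field F] {W : Affine F}

/-- homogeneous `x`-coordinate, numerator -/
def xX : W.Point → F
  | .zero => 1
  | .some x _ _ => x

/-- homogeneous `x`-coordinate, denominator -/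
def xZ : W.Point → F
  | .zero => 0
  | .some _ _ _ => 1

@[simp] lemma xX_zero : xX (0 : W.Point) = 1 := rfl
@[simp] lemma xZ_zero : xZ (0 : W.Point) = 0 := rfl
@[simp] lemma xX_some {x y : F} (h : W.Nonsingular x y) : xX (.some x y h : W.Point) = x := rfl
@[simp] lemma xZ_some {x y : F} (h : W.Nonsingular x y) : xZ (.some x y h : W.Point) = 1 := rfl

@[simp] lemma xX_neg (P : W.Point) : xX (-P) = xX P := by
  cases P <;> rfl

@[simp] lemma xZ_neg (P : W.Point) : xZ (-P) = xZ P := by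
  cases P <;> rfl

lemma xX_ne_or (P : W.Point) : xX P ≠ 0 ∨ xZ P ≠ 0 := by
  cases P with
  | zero => left; exact one_ne_zero
  | some x y h => right; exact one_ne_zero

lemma xZ_eq_zero_iff (P : W.Point) : xZ P = 0 ↔ P = 0 := by
  cases P with
  | zero => exact ⟨fun _ => rfl, fun _ => rfl⟩
  | some x y h => simp [Point.some_ne_zero]

variable [DecidableEq F]

/-- The Kummer relation for a pair of points. -/
def Rel (P Q : W.Point) : Prop :=
  ∃ μ : F, μ ≠ 0 ∧
    xX (P + Q) * xX (P - Q) =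
      μ * F0 W.b₄ W.b₆ W.b₈ (xX P * xX Q) (xX P * xZ Q + xX Q * xZ P) (xZ P * xZ Q) ∧
    xX (P + Q) * xZ (P - Q) + xX (P - Q) * xZ (P + Q) =
      μ * F1 W.b₂ W.b₄ W.b₆ (xX P * xX Q) (xX P * xZ Q + xX Q * xZ P) (xZ P * xZ Q) ∧
    xZ (P + Q) * xZ (P - Q) =
      μ * F2 (xX P * xX Q) (xX P * xZ Q + xX Q * xZ P) (xZ P * xZ Q)

lemma rel_of_X_ne {x₁ y₁ x₂ y₂ : F} (h₁ : W.Nonsingular x₁ y₁) (h₂ : W.Nonsingular x₂ y₂)
    (hx : x₁ ≠ x₂) : Rel (.some x₁ y₁ h₁ : W.Point) (.some x₂ y₂ h₂) := by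
  set P : W.Point := .some x₁ y₁ h₁ with hP
  set Q : W.Point := .some x₂ y₂ h₂ with hQ'
  have hx' : x₁ - x₂ ≠ 0 := sub_ne_zero.mpr hx
  have e₁ := (W.equation_iff x₁ y₁).mp h₁.1
  have e₂ := (W.equation_iff x₂ y₂).mp h₂.1
  refine ⟨((x₁ - x₂) ^ 2)⁻¹, inv_ne_zero (pow_ne_zero 2 hx'), ?_⟩
  have hQ : -Q = .some x₂ (W.negY x₂ y₂) ((W.nonsingular_neg x₂ y₂).mpr h₂) := rfl
  have hadd : P + Q = .some _ _ (nonsingular_add h₁ h₂ fun hxy => hx hxy.left) :=
    add_of_X_ne hx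
  have hsub : P - Q = .some _ _ (nonsingular_add h₁ ((W.nonsingular_neg x₂ y₂).mpr h₂)
      fun hxy => hx hxy.left) := by
    rw [sub_eq_add_neg, hQ]
    exact add_of_X_ne hx
  rw [hadd, hsub]
  have ha6 : W.a₆ = y₁ ^ 2 + W.a₁ * x₁ * y₁ + W.a₃ * y₁ - (x₁ ^ 3 + W.a₂ * x₁ ^ 2 + W.a₄ * x₁) := by
    linear_combination -e₁
  have ha4 : W.a₄ = (y₁ ^ 2 + W.a₁ * x₁ * y₁ + W.a₃ * y₁ - (x₁ ^ 3 + W.a₂ * x₁ ^ 2)
      - (y₂ ^ 2 + W.a₁ * x₂ * y₂ + W.a₃ * y₂ - (x₂ ^ 3 + W.a₂ * x₂ ^ 2))) / (x₁ - x₂) := by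
    rw [eq_div_iff hx']
    linear_combination e₂ - e₁
  simp only [hP, hQ', xX_some, xZ_some, F0, F1, F2, addX, slope_of_X_ne hx, negY, b₂, b₄, b₆, b₈]
  rw [ha6, ha4]
  refine ⟨?_, ?_, ?_⟩
  · field_simp
    ring
  · field_simp
    ring
  · field_simp
    ring

lemma rel_zero_left (Q : W.Point) : Rel (0 : W.Point) Q := by
  refine ⟨1, one_ne_zero, ?_, ?_, ?_⟩ <;>
    simp only [zero_add, zero_sub, xX_neg, xZ_neg, xX_zero, xZ_zero, F0, F1, F2] <;> ring

lemma rel_zero_right (P : W.Point) : Rel P (0 : W.Point) := by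
  refine ⟨1, one_ne_zero, ?_, ?_, ?_⟩ <;>
    simp only [add_zero, sub_zero, xX_zero, xZ_zero, F0, F1, F2] <;> ring

lemma Rel.neg_right {P Q : W.Point} (h : Rel P Q) : Rel P (-Q) := by
  obtain ⟨μ, hμ, h0, h1, h2⟩ := h
  refine ⟨μ, hμ, ?_, ?_, ?_⟩
  · rw [← sub_eq_add_neg, sub_neg_eq_add, xX_neg, xZ_neg, ← h0, mul_comm]
  · rw [← sub_eq_add_neg, sub_neg_eq_add, xX_neg, xZ_neg, ← h1, add_comm]
  · rw [← sub_eq_add_neg, sub_neg_eq_add, xX_neg, xZ_neg, ← h2, mul_comm]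

omit [DecidableEq F] in
lemma psi_sq {x y : F} (h : W.Equation x y) :
    (y - W.negY x y) ^ 2 = 4 * x ^ 3 + W.b₂ * x ^ 2 + 2 * W.b₄ * x + W.b₆ := by
  have e := (W.equation_iff x y).mp h
  simp only [negY, b₂, b₄, b₆]
  linear_combination 4 * e

omit [DecidableEq F] in
/-- the identity relating the `x`-coordinate duplication numerator, and the partial derivatives -/
lemma phi_eq {x y : F} (h : W.Equation x y) :
    x ^ 4 - W.b₄ * x ^ 2 - 2 * W.b₆ * x - W.b₈ =
      (3 * x ^ 2 + 2 * W.a₂ * x + W.a₄ - W.a₁ * y) ^ 2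
        + W.a₁ * (3 * x ^ 2 + 2 * W.a₂ * x + W.a₄ - W.a₁ * y) * (y - W.negY x y)
        - (W.a₂ + 2 * x) * (y - W.negY x y) ^ 2 := by
  have e := (W.equation_iff x y).mp h
  simp only [negY, b₄, b₆, b₈]
  linear_combination (8 * x + 4 * W.a₂ + W.a₁ ^ 2) * e

lemma rel_self (P : W.Point) : Rel P P := by
  cases P with
  | zero => exact rel_zero_left 0
  | some x y h =>
    have hsub : (.some x y h : W.Point) - .some x y h = 0 := sub_self _
    by_cases hy : y = W.negY x y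
    · -- 2-torsion
      have hadd : (.some x y h : W.Point) + .some x y h = 0 := add_self_of_Y_eq hy
      have hpsi : (4 * x ^ 3 + W.b₂ * x ^ 2 + 2 * W.b₄ * x + W.b₆) = 0 := by
        rw [← psi_sq h.1, sub_eq_zero.mpr hy, zero_pow two_ne_zero]
      have hphi := phi_eq h.1
      rw [sub_eq_zero.mpr hy, mul_zero, zero_pow two_ne_zero, mul_zero, add_zero, sub_zero] at hphi
      have hW : (3 * x ^ 2 + 2 * W.a₂ * x + W.a₄ - W.a₁ * y) ≠ 0 := by
        rcases ((W.nonsingular_iff' x y).mp h).2 with h1 | h1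
        · intro h2; apply h1; linear_combination -h2
        · exfalso
          apply h1
          have := sub_eq_zero.mpr hy
          simp only [negY] at this
          linear_combination this
      have hphi0 : x ^ 4 - W.b₄ * x ^ 2 - 2 * W.b₆ * x - W.b₈ ≠ 0 := by
        rw [hphi]; exact pow_ne_zero 2 hW
      refine ⟨(x ^ 4 - W.b₄ * x ^ 2 - 2 * W.b₆ * x - W.b₈)⁻¹, inv_ne_zero hphi0, ?_, ?_, ?_⟩
      · rw [hadd, hsub]
        simp only [xX_some, xZ_some, xX_zero, F0]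
        rw [eq_comm, inv_mul_eq_iff_eq_mul₀ hphi0]
        ring
      · rw [hadd, hsub]
        simp only [xX_some, xZ_some, xX_zero, xZ_zero, F1]
        rw [eq_comm, inv_mul_eq_iff_eq_mul₀ hphi0]
        linear_combination hpsi
      · rw [hadd, hsub]
        simp only [xX_some, xZ_some, xZ_zero, F2]
        ring
    · have hadd : (.some x y h : W.Point) + .some x y h =
          .some _ _ (nonsingular_add h h fun hxy => hy hxy.right) := add_self_of_Y_ne hy
      have hy' : y - W.negY x y ≠ 0 := sub_ne_zero.mpr hy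
      have hpsi := psi_sq h.1
      have hphi := phi_eq h.1
      have hpsi0 : (4 * x ^ 3 + W.b₂ * x ^ 2 + 2 * W.b₄ * x + W.b₆) ≠ 0 := by
        rw [← hpsi]; exact pow_ne_zero 2 hy'
      refine ⟨((y - W.negY x y) ^ 2)⁻¹, inv_ne_zero (pow_ne_zero 2 hy'), ?_, ?_, ?_⟩
      · rw [hadd, hsub]
        simp only [xX_some, xZ_some, xX_zero, F0, addX, slope_of_Y_ne rfl hy]
        rw [eq_comm, inv_mul_eq_iff_eq_mul₀ (pow_ne_zero 2 hy')]
        field_simp
        linear_combination hphi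
      · rw [hadd, hsub]
        simp only [xX_some, xZ_some, xX_zero, xZ_zero, F1]
        rw [eq_comm, inv_mul_eq_iff_eq_mul₀ (pow_ne_zero 2 hy')]
        linear_combination -hpsi
      · rw [hadd, hsub]
        simp only [xX_some, xZ_some, xZ_zero, F2]
        ring

theorem rel (P Q : W.Point) : Rel P Q := by
  rcases P with _ | ⟨x₁, y₁, h₁⟩
  · exact rel_zero_left Q
  rcases Q with _ | ⟨x₂, y₂, h₂⟩
  · exact rel_zero_right _
  by_cases hx : x₁ = x₂
  · rcases (X_eq_iff (h₁ := h₁) (h₂ := h₂)).mp hx with h | h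
    · rw [h]; exact rel_self _
    · have : (.some x₂ y₂ h₂ : W.Point) = - .some x₁ y₁ h₁ := by rw [h, neg_neg]
      rw [this]
      exact (rel_self _).neg_right
  · exact rel_of_X_ne h₁ h₂ hx

theorem isKummer (W : Affine F) :
    IsKummer W.b₂ W.b₄ W.b₆ W.b₈ (xX (W := W)) (xZ (W := W)) where
  ne_zero := xX_ne_or
  Z_zero := rfl
  X_neg := xX_neg
  Z_neg := xZ_neg
  rel := rel

end Curve

end Fermat.Agent.EC
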