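/-
Valuation-theoretic consequences of the Kummer relation: the kernel of reduction `E₁`
(points whose `x`-coordinate has a pole) is a subgroup without torsion prime to the residue
characteristic.
-/
import Fermat.Agent.EC.Kummer
import Mathlib.RingTheory.Valuation.Basic

set_option autoImplicit false

namespace Fermat.Agent.EC

variable {K G Γ₀ : Type*} [Field K] [AddCommGroup G] [LinearOrderedCommGroupWithZero Γ₀]

section Val

variable (v : Valuation K Γ₀)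

lemma val_natCast_le_one (n : ℕ) : v (n : K) ≤ 1 := by
  induction n with
  | zero => simp
  | succ n ih =>
    push_cast
    exact (v.map_add _ _).trans (max_le ih (by simp))

lemma val_intCast_le_one (n : ℤ) : v (n : K) ≤ 1 := by
  cases n with
  | ofNat n => simpa using val_natCast_le_one v n
  | negSucc n =>
    rw [Int.cast_negSucc, Valuation.map_neg]
    exact val_natCast_le_one v _

/-- if the sum and the product of `a`, `b` are small then so are `a` and `b`. -/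
lemma val_le_of_sum_prod_le {a b : K} {r : Γ₀} (hs : v (a + b) ≤ r) (hp : v (a * b) ≤ r ^ 2) :
    v a ≤ r := by
  by_contra h
  rw [not_le] at h
  have hb : v b = v a := by
    have : b = -(a - (a + b)) := by ring
    rw [this, Valuation.map_neg]
    exact Valuation.map_sub_eq_of_lt_left v (lt_of_le_of_lt hs h)
  rw [map_mul, hb, ← pow_two] at hp
  exact absurd hp (not_le.mpr (pow_lt_pow_left₀ h zero_le two_ne_zero))

/-- if the sum and the product of `a`, `b` are in the maximal ideal then so are `a` and `b`. -/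
lemma val_lt_one_of_sum_prod_lt {a b : K} (hs : v (a + b) < 1) (hp : v (a * b) < 1) :
    v a < 1 := by
  by_contra h
  rw [not_lt] at h
  have hb : v b = v a := by
    have : b = -(a - (a + b)) := by ring
    rw [this, Valuation.map_neg]
    exact Valuation.map_sub_eq_of_lt_left v (lt_of_lt_of_le hs h)
  rw [map_mul, hb] at hp
  exact absurd hp (not_lt.mpr (one_le_mul h h))

end Val

variable {b₂ b₄ b₆ b₈ : K} {X Z : G → K} (v : Valuation K Γ₀)

/-- membership in the kernel of reduction, in terms of homogeneous coordinates -/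
def InE1 (X Z : G → K) (P : G) : Prop := v (Z P) < v (X P)

lemma f0_unit (hb₄ : v b₄ ≤ 1) (hb₆ : v b₆ ≤ 1) (hb₈ : v b₈ ≤ 1) {t u : K} (ht : v t ≤ 1)
    (hu : v u < 1) : v (1 - F0 b₄ b₆ b₈ 1 t u) ≤ v u ∧ v (F0 b₄ b₆ b₈ 1 t u) = 1 := by
  have h1 : v (1 - F0 b₄ b₆ b₈ 1 t u) ≤ v u := by
    have : 1 - F0 b₄ b₆ b₈ 1 t u = (b₄ + b₆ * t + b₈ * u) * u := by
      simp only [F0]; ring
    rw [this, map_mul]
    refine mul_le_of_le_one_left' ?_
    refine (v.map_add _ _).trans (max_le ((v.map_add _ _).trans (max_le hb₄ ?_)) ?_)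
    · rw [map_mul]; exact mul_le_one' hb₆ ht
    · rw [map_mul]; exact mul_le_one' hb₈ hu.le
  refine ⟨h1, ?_⟩
  have : F0 b₄ b₆ b₈ 1 t u = 1 - (1 - F0 b₄ b₆ b₈ 1 t u) := by ring
  rw [this]
  have h2 : v (1 - F0 b₄ b₆ b₈ 1 t u) < v 1 := by
    rw [map_one]; exact lt_of_le_of_lt h1 hu
  rw [Valuation.map_sub_eq_of_lt_left v h2, map_one]

lemma f1_approx (hb₂ : v b₂ ≤ 1) (hb₄ : v b₄ ≤ 1) (hb₆ : v b₆ ≤ 1) {t u : K} (ht : v t ≤ 1)
    (hu : v u < 1) : v (F1 b₂ b₄ b₆ 1 t u - 2 * t) ≤ v u := by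
  have : F1 b₂ b₄ b₆ 1 t u - 2 * t = (b₂ + b₄ * t + b₆ * u) * u := by
    simp only [F1]; ring
  rw [this, map_mul]
  refine mul_le_of_le_one_left' ?_
  refine (v.map_add _ _).trans (max_le ((v.map_add _ _).trans (max_le hb₂ ?_)) ?_)
  · rw [map_mul]; exact mul_le_one' hb₄ ht
  · rw [map_mul]; exact mul_le_one' hb₆ hu.le

section hom

variable {R : Type*} [CommRing R]
lemma F0_hom (b₄ b₆ b₈ c s t u : R) :
    F0 b₄ b₆ b₈ (c * s) (c * t) (c * u) = c ^ 2 * F0 b₄ b₆ b₈ s t u := by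
  simp only [F0]; ring
lemma F1_hom (b₂ b₄ b₆ c s t u : R) :
    F1 b₂ b₄ b₆ (c * s) (c * t) (c * u) = c ^ 2 * F1 b₂ b₄ b₆ s t u := by
  simp only [F1]; ring
lemma F2_hom (c s t u : R) :
    F2 (c * s) (c * t) (c * u) = c ^ 2 * F2 s t u := by
  simp only [F2]; ring

end hom

/-- Relation in terms of the local parameter `t = Z / X`. -/
lemma IsKummer.rel_t (hK : IsKummer b₂ b₄ b₆ b₈ X Z) (hb₄ : v b₄ ≤ 1)
    (hb₆ : v b₆ ≤ 1) (hb₈ : v b₈ ≤ 1) {P Q : G} (hP : InE1 v X Z P) (hQ : InE1 v X Z Q) :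
    let t₁ := Z P / X P
    let t₂ := Z Q / X Q
    let f0 := F0 b₄ b₆ b₈ 1 (t₁ + t₂) (t₁ * t₂)
    let f1 := F1 b₂ b₄ b₆ 1 (t₁ + t₂) (t₁ * t₂)
    let f2 := F2 1 (t₁ + t₂) (t₁ * t₂)
    X (P + Q) ≠ 0 ∧ X (P - Q) ≠ 0 ∧
    (Z (P + Q) / X (P + Q) + Z (P - Q) / X (P - Q)) * f0 = f1 ∧
    (Z (P + Q) / X (P + Q)) * (Z (P - Q) / X (P - Q)) * f0 = f2 := by
  intro t₁ t₂ f0 f1 f2
  have hXP : X P ≠ 0 := fun h => by simp [InE1, h] at hP
  have hXQ : X Q ≠ 0 := fun h => by simp [InE1, h] at hQ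
  have hZP : Z P = t₁ * X P := by simp [t₁, hXP]
  have hZQ : Z Q = t₂ * X Q := by simp [t₂, hXQ]
  have vt1 : v t₁ < 1 := by
    simp only [t₁, map_div₀]
    exact (div_lt_one₀ (lt_of_le_of_lt zero_le hP)).mpr hP
  have vt2 : v t₂ < 1 := by
    simp only [t₂, map_div₀]
    exact (div_lt_one₀ (lt_of_le_of_lt zero_le hQ)).mpr hQ
  have vu : v (t₁ * t₂) < 1 := by
    rw [map_mul]; exact mul_lt_one_of_nonneg_of_lt_one_left zero_le vt1 vt2.le
  have vt : v (t₁ + t₂) ≤ 1 := (v.map_add _ _).trans (max_le vt1.le vt2.le)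
  have hf0 : v f0 = 1 := (f0_unit v hb₄ hb₆ hb₈ vt vu).2
  have hf0' : f0 ≠ 0 := fun h => by simp [h] at hf0
  obtain ⟨μ, hμ, h0, h1, h2⟩ := hK.rel P Q
  have et : X P * Z Q + X Q * Z P = (X P * X Q) * (t₁ + t₂) := by rw [hZP, hZQ]; ring
  have eu : Z P * Z Q = (X P * X Q) * (t₁ * t₂) := by rw [hZP, hZQ]; ring
  rw [et, eu] at h0 h1 h2
  have h0 : X (P + Q) * X (P - Q) = μ * F0 b₄ b₆ b₈ ((X P * X Q) * 1)
      ((X P * X Q) * (t₁ + t₂)) ((X P * X Q) * (t₁ * t₂)) := by rw [h0, mul_one]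
  have h1 : X (P + Q) * Z (P - Q) + X (P - Q) * Z (P + Q) = μ * F1 b₂ b₄ b₆ ((X P * X Q) * 1)
      ((X P * X Q) * (t₁ + t₂)) ((X P * X Q) * (t₁ * t₂)) := by rw [h1, mul_one]
  have h2 : Z (P + Q) * Z (P - Q) = μ * F2 ((X P * X Q) * 1)
      ((X P * X Q) * (t₁ + t₂)) ((X P * X Q) * (t₁ * t₂)) := by rw [h2, mul_one]
  rw [F0_hom] at h0
  rw [F1_hom] at h1
  rw [F2_hom] at h2
  set ν := μ * (X P * X Q) ^ 2 with hν
  have hν0 : ν ≠ 0 := mul_ne_zero hμ (pow_ne_zero 2 (mul_ne_zero hXP hXQ))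
  have h0' : X (P + Q) * X (P - Q) = ν * f0 := by rw [h0, hν]; ring
  have h1' : X (P + Q) * Z (P - Q) + X (P - Q) * Z (P + Q) = ν * f1 := by rw [h1, hν]; ring
  have h2' : Z (P + Q) * Z (P - Q) = ν * f2 := by rw [h2, hν]; ring
  have hX : X (P + Q) * X (P - Q) ≠ 0 := by rw [h0']; exact mul_ne_zero hν0 hf0'
  have hX1 := left_ne_zero_of_mul hX
  have hX2 := right_ne_zero_of_mul hX
  refine ⟨hX1, hX2, ?_, ?_⟩
  · field_simp
    apply mul_left_cancel₀ hν0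
    calc ν * ((Z (P + Q) * X (P - Q) + X (P + Q) * Z (P - Q)) * f0)
        = (X (P + Q) * Z (P - Q) + X (P - Q) * Z (P + Q)) * (ν * f0) := by ring
      _ = (ν * f1) * (X (P + Q) * X (P - Q)) := by rw [h1', ← h0']
      _ = ν * (f1 * X (P + Q) * X (P - Q)) := by ring
      _ = _ := by ring
  · field_simp
    apply mul_left_cancel₀ hν0
    calc ν * (Z (P + Q) * Z (P - Q) * f0)
        = (Z (P + Q) * Z (P - Q)) * (ν * f0) := by ring
      _ = (ν * f2) * (X (P + Q) * X (P - Q)) := by rw [h2', ← h0']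
      _ = _ := by ring

omit [AddCommGroup G] in
lemma inE1_iff_t {P : G} : InE1 v X Z P ↔ X P ≠ 0 ∧ v (Z P / X P) < 1 := by
  constructor
  · intro h
    refine ⟨fun h0 => by simp [InE1, h0] at h, ?_⟩
    rw [map_div₀]
    exact (div_lt_one₀ (lt_of_le_of_lt zero_le h)).mpr h
  · rintro ⟨h0, h1⟩
    rw [map_div₀] at h1
    exact (div_lt_one₀ (lt_of_le_of_ne zero_le (Ne.symm ((v.ne_zero_iff).mpr h0)))).mp h1

/-- The kernel of reduction is closed under addition and subtraction. -/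
lemma IsKummer.inE1_add_sub (hK : IsKummer b₂ b₄ b₆ b₈ X Z) (hb₂ : v b₂ ≤ 1) (hb₄ : v b₄ ≤ 1)
    (hb₆ : v b₆ ≤ 1) (hb₈ : v b₈ ≤ 1) {P Q : G} (hP : InE1 v X Z P) (hQ : InE1 v X Z Q) :
    InE1 v X Z (P + Q) ∧ InE1 v X Z (P - Q) := by
  obtain ⟨hX1, hX2, h1, h2⟩ := hK.rel_t v hb₄ hb₆ hb₈ hP hQ
  set t₁ := Z P / X P with ht₁
  set t₂ := Z Q / X Q with ht₂
  have vt1 : v t₁ < 1 := ((inE1_iff_t v).mp hP).2
  have vt2 : v t₂ < 1 := ((inE1_iff_t v).mp hQ).2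
  have vu : v (t₁ * t₂) < 1 := by
    rw [map_mul]; exact mul_lt_one_of_nonneg_of_lt_one_left zero_le vt1 vt2.le
  have vt : v (t₁ + t₂) < 1 := (v.map_add _ _).trans_lt (max_lt vt1 vt2)
  have hf0 : v (F0 b₄ b₆ b₈ 1 (t₁ + t₂) (t₁ * t₂)) = 1 := (f0_unit v hb₄ hb₆ hb₈ vt.le vu).2
  have hs : v (Z (P + Q) / X (P + Q) + Z (P - Q) / X (P - Q)) < 1 := by
    have := congrArg v h1
    rw [map_mul, hf0, mul_one] at this
    rw [this]
    have e : F1 b₂ b₄ b₆ 1 (t₁ + t₂) (t₁ * t₂) =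
      (F1 b₂ b₄ b₆ 1 (t₁ + t₂) (t₁ * t₂) - 2 * (t₁ + t₂)) + 2 * (t₁ + t₂) := by ring
    rw [e]
    refine (v.map_add _ _).trans_lt (max_lt
      ((f1_approx v hb₂ hb₄ hb₆ vt.le vu).trans_lt vu) ?_)
    rw [map_mul]
    have h2 : v (2 : K) ≤ 1 := by exact_mod_cast val_natCast_le_one v 2
    exact lt_of_le_of_lt (mul_le_of_le_one_left' h2) vt
  have hp : v ((Z (P + Q) / X (P + Q)) * (Z (P - Q) / X (P - Q))) < 1 := by
    have := congrArg v h2
    rw [map_mul, hf0, mul_one] at this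
    rw [this]
    have e : F2 1 (t₁ + t₂) (t₁ * t₂) = (t₁ - t₂) ^ 2 := by simp only [F2]; ring
    rw [e, map_pow]
    exact pow_lt_one₀ zero_le ((v.map_sub _ _).trans_lt (max_lt vt1 vt2)) two_ne_zero
  constructor
  · exact (inE1_iff_t v).mpr ⟨hX1, val_lt_one_of_sum_prod_lt v hs hp⟩
  · refine (inE1_iff_t v).mpr ⟨hX2, ?_⟩
    rw [add_comm] at hs
    rw [mul_comm] at hp
    exact val_lt_one_of_sum_prod_lt v hs hp

/-- Asymptotic multiplication formula on the kernel of reduction: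
`t(mP) ≡ m² t(P)` modulo `t(P) 𝔪`. -/
lemma IsKummer.t_nsmul (hK : IsKummer b₂ b₄ b₆ b₈ X Z) (hb₂ : v b₂ ≤ 1) (hb₄ : v b₄ ≤ 1)
    (hb₆ : v b₆ ≤ 1) (hb₈ : v b₈ ≤ 1) {P : G} (hP : InE1 v X Z P) (hZ : Z P ≠ 0) (m : ℕ) :
    (InE1 v X Z (m • P) ∧ v (Z (m • P) / X (m • P) - (m : K) ^ 2 * (Z P / X P)) < v (Z P / X P))
    ∧ (InE1 v X Z ((m + 1) • P) ∧
      v (Z ((m + 1) • P) / X ((m + 1) • P) - ((m + 1 : ℕ) : K) ^ 2 * (Z P / X P))
        < v (Z P / X P)) := by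
  have hXP : X P ≠ 0 := fun h => by simp [InE1, h] at hP
  have vτ0 : 0 < v (Z P / X P) :=
    lt_of_le_of_ne zero_le (Ne.symm ((v.ne_zero_iff).mpr (div_ne_zero hZ hXP)))
  have vτ1 : v (Z P / X P) < 1 := ((inE1_iff_t v).mp hP).2
  induction m with
  | zero =>
    refine ⟨⟨?_, ?_⟩, ?_, ?_⟩
    · rw [zero_smul]
      have h0 := hK.ne_zero 0
      rw [InE1, hK.Z_zero, map_zero]
      rcases h0 with h0 | h0
      · exact lt_of_le_of_ne zero_le (Ne.symm ((v.ne_zero_iff).mpr h0))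
      · exact absurd hK.Z_zero h0
    · rw [zero_smul, hK.Z_zero]; simpa using vτ0
    · simpa using hP
    · simpa using vτ0
  | succ m ih =>
    obtain ⟨⟨hm1, hm2⟩, hm3, hm4⟩ := ih
    refine ⟨⟨hm3, hm4⟩, ?_⟩
    set Q := (m + 1) • P with hQdef
    have eadd : (m + 1 + 1) • P = Q + P := by rw [hQdef, succ_nsmul _ (m + 1)]
    have esub : m • P = Q - P := by rw [hQdef, succ_nsmul]; abel
    rw [eadd]
    rw [esub] at hm1 hm2
    obtain ⟨hadd, -⟩ := hK.inE1_add_sub v hb₂ hb₄ hb₆ hb₈ hm3 hP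
    refine ⟨hadd, ?_⟩
    obtain ⟨hX1, hX2, h1, -⟩ := hK.rel_t v hb₄ hb₆ hb₈ hm3 hP
    set t₁ := Z Q / X Q with ht₁
    set t₂ := Z P / X P with ht₂
    set tp := Z (Q + P) / X (Q + P) with htp
    set tm := Z (Q - P) / X (Q - P) with htm
    have vt1 : v t₁ < 1 := ((inE1_iff_t v).mp hm3).2
    have vt1' : v t₁ ≤ v t₂ := by
      have : t₁ = (t₁ - ((m + 1 : ℕ) : K) ^ 2 * t₂) + ((m + 1 : ℕ) : K) ^ 2 * t₂ := by ring
      rw [this]
      refine (v.map_add _ _).trans (max_le hm4.le ?_)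
      rw [map_mul, map_pow]
      exact mul_le_of_le_one_left' (pow_le_one' (val_natCast_le_one v _) 2)
    have vu : v (t₁ * t₂) < v t₂ := by
      rw [map_mul]
      calc v t₁ * v t₂ < 1 * v t₂ := by
            exact mul_lt_mul_of_pos_right vt1 vτ0
        _ = v t₂ := one_mul _
    have vt : v (t₁ + t₂) ≤ v t₂ := (v.map_add _ _).trans (max_le vt1' le_rfl)
    have hu1 := vu.trans vτ1
    have ht1 := vt.trans vτ1.le
    obtain ⟨hf0a, hf0⟩ := f0_unit v hb₄ hb₆ hb₈ ht1 hu1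
    have hf1 := f1_approx v hb₂ hb₄ hb₆ ht1 hu1
    set f0 := F0 b₄ b₆ b₈ 1 (t₁ + t₂) (t₁ * t₂) with hf0def
    set f1 := F1 b₂ b₄ b₆ 1 (t₁ + t₂) (t₁ * t₂) with hf1def
    -- `tp * f0 = f1 - tm * f0`
    have key : (tp - ((m + 1 + 1 : ℕ) : K) ^ 2 * t₂) * f0 =
        (f1 - 2 * (t₁ + t₂)) + (tm + ((m + 1 + 1 : ℕ) : K) ^ 2 * t₂) * (1 - f0)
        + (2 * (t₁ - ((m + 1 : ℕ) : K) ^ 2 * t₂) - (tm - (m : K) ^ 2 * t₂)) := by
      push_cast
      linear_combination h1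
    have hv : v ((tp - ((m + 1 + 1 : ℕ) : K) ^ 2 * t₂) * f0) < v t₂ := by
      rw [key]
      have h2 : v (2 : K) ≤ 1 := by exact_mod_cast val_natCast_le_one v 2
      refine (v.map_add _ _).trans_lt (max_lt ((v.map_add _ _).trans_lt (max_lt ?_ ?_)) ?_)
      · exact hf1.trans_lt vu
      · rw [map_mul]
        have : v (tm + ((m + 1 + 1 : ℕ) : K) ^ 2 * t₂) ≤ 1 := by
          refine (v.map_add _ _).trans (max_le ((inE1_iff_t v).mp hm1).2.le ?_)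
          rw [map_mul, map_pow]
          exact mul_le_one' (pow_le_one' (val_natCast_le_one v _) 2) vτ1.le
        exact lt_of_le_of_lt (mul_le_of_le_one_left' this) (hf0a.trans_lt vu)
      · refine (v.map_sub _ _).trans_lt (max_lt ?_ hm2)
        rw [map_mul]
        exact lt_of_le_of_lt (mul_le_of_le_one_left' h2) hm4
    rwa [map_mul, hf0, mul_one] at hv

/-- The kernel of reduction has no torsion prime to the residue characteristic. -/
theorem IsKummer.eq_zero_of_nsmul_eq_zero (hK : IsKummer b₂ b₄ b₆ b₈ X Z) (hb₂ : v b₂ ≤ 1)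
    (hb₄ : v b₄ ≤ 1) (hb₆ : v b₆ ≤ 1) (hb₈ : v b₈ ≤ 1) {P : G} (hP : InE1 v X Z P)
    {n : ℕ} (hn : v (n : K) = 1) (hnP : n • P = 0) : Z P = 0 := by
  by_contra hZ
  obtain ⟨⟨-, h⟩, -⟩ := hK.t_nsmul v hb₂ hb₄ hb₆ hb₈ hP hZ n
  rw [hnP, hK.Z_zero, zero_div, zero_sub, Valuation.map_neg, map_mul, map_pow, hn, one_pow,
    one_mul] at h
  exact lt_irrefl _ h

end Fermat.Agent.EC
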