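/-
Points with nonsingular reduction: if two points `R₁`, `R₂` of a Weierstrass curve with integral
coefficients have the same reduction, which is a nonsingular point, then `R₁ - R₂` lies in the
kernel of reduction.  Application: an automorphism acting trivially on the residue field acts
trivially on prime-to-residue-characteristic torsion points in the good reduction case.
-/
import Fermat.Agent.EC.KummerVal
import Fermat.Prelude.Def_FLTPrelim_GaloisRep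

set_option autoImplicit false

namespace Fermat.Agent.EC

open WeierstrassCurve WeierstrassCurve.Affine WeierstrassCurve.Affine.Point

section Abstract

variable {K G Γ₀ : Type*} [Field K] [AddCommGroup G] [LinearOrderedCommGroupWithZero Γ₀]
variable {b₂ b₄ b₆ b₈ : K} {X Z : G → K} (v : Valuation K Γ₀)

/-- if `F0` is a unit and `F1`, `F2` are nonunits then both `P ± Q` are in the kernel of
reduction. -/
lemma IsKummer.inE1_of_F (hK : IsKummer b₂ b₄ b₆ b₈ X Z) {P Q : G} {r : Γ₀} (hr : 0 < r)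
    (h0 : v (F0 b₄ b₆ b₈ (X P * X Q) (X P * Z Q + X Q * Z P) (Z P * Z Q)) = r)
    (h1 : v (F1 b₂ b₄ b₆ (X P * X Q) (X P * Z Q + X Q * Z P) (Z P * Z Q)) < r)
    (h2 : v (F2 (X P * X Q) (X P * Z Q + X Q * Z P) (Z P * Z Q)) < r) :
    InE1 v X Z (P + Q) ∧ InE1 v X Z (P - Q) := by
  obtain ⟨μ, hμ, e0, e1, e2⟩ := hK.rel P Q
  have hF0 : F0 b₄ b₆ b₈ (X P * X Q) (X P * Z Q + X Q * Z P) (Z P * Z Q) ≠ 0 := by
    intro h; rw [h, _root_.map_zero] at h0; exact absurd h0 hr.ne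
  have hvμ : 0 < v μ := lt_of_le_of_ne zero_le (Ne.symm (v.ne_zero_iff.mpr hμ))
  have hX : X (P + Q) * X (P - Q) ≠ 0 := by rw [e0]; exact mul_ne_zero hμ hF0
  have hX1 := left_ne_zero_of_mul hX
  have hX2 := right_ne_zero_of_mul hX
  have hvX : 0 < v (X (P + Q) * X (P - Q)) :=
    lt_of_le_of_ne zero_le (Ne.symm (v.ne_zero_iff.mpr hX))
  have hs : v (Z (P + Q) / X (P + Q) + Z (P - Q) / X (P - Q)) < 1 := by
    have : Z (P + Q) / X (P + Q) + Z (P - Q) / X (P - Q) =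
      (X (P + Q) * Z (P - Q) + X (P - Q) * Z (P + Q)) / (X (P + Q) * X (P - Q)) := by
      field_simp; ring
    rw [this, map_div₀, div_lt_one₀ hvX, e1, e0, map_mul, map_mul, h0]
    exact mul_lt_mul_of_pos_left h1 hvμ
  have hp : v ((Z (P + Q) / X (P + Q)) * (Z (P - Q) / X (P - Q))) < 1 := by
    have : (Z (P + Q) / X (P + Q)) * (Z (P - Q) / X (P - Q)) =
      (Z (P + Q) * Z (P - Q)) / (X (P + Q) * X (P - Q)) := by
      field_simp
    rw [this, map_div₀, div_lt_one₀ hvX, e2, e0, map_mul, map_mul, h0]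
    exact mul_lt_mul_of_pos_left h2 hvμ
  constructor
  · exact (inE1_iff_t v).mpr ⟨hX1, val_lt_one_of_sum_prod_lt v hs hp⟩
  · refine (inE1_iff_t v).mpr ⟨hX2, ?_⟩
    rw [add_comm] at hs
    rw [mul_comm] at hp
    exact val_lt_one_of_sum_prod_lt v hs hp

end Abstract

section Curve

variable {K Γ₀ : Type*} [Field K] [LinearOrderedCommGroupWithZero Γ₀]
variable {W : Affine K} (v : Valuation K Γ₀)

/-- all coefficients of `W` are `v`-integral -/
structure IsInt (W : Affine K) : Prop where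
  a₁ : v W.a₁ ≤ 1
  a₂ : v W.a₂ ≤ 1
  a₃ : v W.a₃ ≤ 1
  a₄ : v W.a₄ ≤ 1
  a₆ : v W.a₆ ≤ 1

/-- membership of a sum/product in the valuation ring: automation via the integer subring. -/
lemma IsInt.mem (hW : IsInt v W) : W.a₁ ∈ v.integer ∧ W.a₂ ∈ v.integer ∧ W.a₃ ∈ v.integer ∧
    W.a₄ ∈ v.integer ∧ W.a₆ ∈ v.integer := ⟨hW.a₁, hW.a₂, hW.a₃, hW.a₄, hW.a₆⟩

lemma natCast_mem_integer (n : ℕ) : (n : K) ∈ v.integer := val_natCast_le_one v n

lemma ofNat_mem_integer (n : ℕ) [n.AtLeastTwo] : (OfNat.ofNat n : K) ∈ v.integer :=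
  natCast_mem_integer v n

variable {v}

lemma IsInt.b₂ (hW : IsInt v W) : v W.b₂ ≤ 1 := by
  obtain ⟨h1, h2, h3, h4, h6⟩ := hW.mem
  change W.b₂ ∈ v.integer
  simp only [WeierstrassCurve.b₂]
  exact add_mem (pow_mem h1 2) (mul_mem (ofNat_mem_integer v 4) h2)

lemma IsInt.b₄ (hW : IsInt v W) : v W.b₄ ≤ 1 := by
  obtain ⟨h1, h2, h3, h4, h6⟩ := hW.mem
  change W.b₄ ∈ v.integer
  simp only [WeierstrassCurve.b₄]
  exact add_mem (mul_mem (ofNat_mem_integer v 2) h4) (mul_mem h1 h3)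

lemma IsInt.b₆ (hW : IsInt v W) : v W.b₆ ≤ 1 := by
  obtain ⟨h1, h2, h3, h4, h6⟩ := hW.mem
  change W.b₆ ∈ v.integer
  simp only [WeierstrassCurve.b₆]
  exact add_mem (pow_mem h3 2) (mul_mem (ofNat_mem_integer v 4) h6)

lemma IsInt.b₈ (hW : IsInt v W) : v W.b₈ ≤ 1 := by
  obtain ⟨h1, h2, h3, h4, h6⟩ := hW.mem
  change W.b₈ ∈ v.integer
  simp only [WeierstrassCurve.b₈]
  exact sub_mem (add_mem (sub_mem (add_mem (mul_mem (pow_mem h1 2) h6)
    (mul_mem (mul_mem (ofNat_mem_integer v 4) h2) h6)) (mul_mem (mul_mem h1 h3) h4))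
    (mul_mem h2 (pow_mem h3 2))) (pow_mem h4 2)

/-- An affine point with integral `x`-coordinate has integral `y`-coordinate. -/
lemma IsInt.y_le_one (hW : IsInt v W) {x y : K} (h : W.Equation x y) (hx : v x ≤ 1) :
    v y ≤ 1 := by
  by_contra hy
  rw [not_le] at hy
  have e := (W.equation_iff x y).mp h
  obtain ⟨h1, h2, h3, h4, h6⟩ := hW.mem
  have hx' : x ∈ v.integer := hx
  have hr : v (x ^ 3 + W.a₂ * x ^ 2 + W.a₄ * x + W.a₆) ≤ 1 :=
    add_mem (add_mem (add_mem (pow_mem hx' 3) (mul_mem h2 (pow_mem hx' 2))) (mul_mem h4 hx')) h6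
  have hc : v (W.a₁ * x + W.a₃) ≤ 1 := add_mem (mul_mem h1 hx') h3
  have hs : v (y + (W.a₁ * x + W.a₃)) = v y :=
    Valuation.map_add_eq_of_lt_left v (lt_of_le_of_lt hc hy)
  have e' : y * (y + (W.a₁ * x + W.a₃)) = x ^ 3 + W.a₂ * x ^ 2 + W.a₄ * x + W.a₆ := by
    rw [← e]; ring
  rw [← e', map_mul, hs] at hr
  exact absurd hr (not_le.mpr (one_lt_mul'' hy hy))

variable (v) in
/-- nonsingular reduction of a point in terms of its (integral) `x`-coordinate -/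
def NS (W : Affine K) (x : K) : Prop :=
  v (4 * x ^ 3 + W.b₂ * x ^ 2 + 2 * W.b₄ * x + W.b₆) = 1 ∨
    v (x ^ 4 - W.b₄ * x ^ 2 - 2 * W.b₆ * x - W.b₈) = 1

/-- Bezout relation between the duplication numerator and denominator -/
lemma bezout_Δ (W : Affine K) (x : K) :
    (-48 * x ^ 2 - 8 * W.b₂ * x + W.b₂ ^ 2 - 32 * W.b₄) *
        (x ^ 4 - W.b₄ * x ^ 2 - 2 * W.b₆ * x - W.b₈) +
      (12 * x ^ 3 - W.b₂ * x ^ 2 - 10 * W.b₄ * x + W.b₂ * W.b₄ - 27 * W.b₆) *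
        (4 * x ^ 3 + W.b₂ * x ^ 2 + 2 * W.b₄ * x + W.b₆) = W.Δ := by
  simp only [WeierstrassCurve.Δ, WeierstrassCurve.b₂, WeierstrassCurve.b₄, WeierstrassCurve.b₆,
    WeierstrassCurve.b₈]
  ring

lemma IsInt.ns_of_Δ (hW : IsInt v W) (hΔ : v W.Δ = 1) {x : K} (hx : v x ≤ 1) : NS v W x := by
  have hx' : x ∈ v.integer := hx
  have h2 : W.b₂ ∈ v.integer := hW.b₂
  have h4 : W.b₄ ∈ v.integer := hW.b₄
  have h6 : W.b₆ ∈ v.integer := hW.b₆
  have h8 : W.b₈ ∈ v.integer := hW.b₈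
  have i2 := ofNat_mem_integer v 2
  have i4 := ofNat_mem_integer v 4
  have hpsi : v (4 * x ^ 3 + W.b₂ * x ^ 2 + 2 * W.b₄ * x + W.b₆) ≤ 1 :=
    add_mem (add_mem (add_mem (mul_mem i4 (pow_mem hx' 3)) (mul_mem h2 (pow_mem hx' 2)))
      (mul_mem (mul_mem i2 h4) hx')) h6
  have hphi : v (x ^ 4 - W.b₄ * x ^ 2 - 2 * W.b₆ * x - W.b₈) ≤ 1 :=
    sub_mem (sub_mem (sub_mem (pow_mem hx' 4) (mul_mem h4 (pow_mem hx' 2)))
      (mul_mem (mul_mem i2 h6) hx')) h8
  by_contra hns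
  rw [NS, not_or] at hns
  have hpsi' := lt_of_le_of_ne hpsi hns.1
  have hphi' := lt_of_le_of_ne hphi hns.2
  have c1 : v (-48 * x ^ 2 - 8 * W.b₂ * x + W.b₂ ^ 2 - 32 * W.b₄) ≤ 1 :=
    sub_mem (add_mem (sub_mem (mul_mem (neg_mem (ofNat_mem_integer v 48)) (pow_mem hx' 2))
      (mul_mem (mul_mem (ofNat_mem_integer v 8) h2) hx')) (pow_mem h2 2))
      (mul_mem (ofNat_mem_integer v 32) h4)
  have c2 : v (12 * x ^ 3 - W.b₂ * x ^ 2 - 10 * W.b₄ * x + W.b₂ * W.b₄ - 27 * W.b₆) ≤ 1 :=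
    sub_mem (add_mem (sub_mem (sub_mem (mul_mem (ofNat_mem_integer v 12) (pow_mem hx' 3))
      (mul_mem h2 (pow_mem hx' 2))) (mul_mem (mul_mem (ofNat_mem_integer v 10) h4) hx'))
      (mul_mem h2 h4)) (mul_mem (ofNat_mem_integer v 27) h6)
  have := bezout_Δ W x
  have hlt : v W.Δ < 1 := by
    rw [← this]
    refine (v.map_add _ _).trans_lt (max_lt ?_ ?_)
    · rw [map_mul]; exact lt_of_le_of_lt (mul_le_of_le_one_left' c1) hphi'
    · rw [map_mul]; exact lt_of_le_of_lt (mul_le_of_le_one_left' c2) hpsi'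
  exact absurd hΔ hlt.ne

variable [DecidableEq K]

/-- Two integral points with the same nonsingular reduction differ by an element of the kernel
of reduction. -/
theorem IsInt.sub_inE1 (hW : IsInt v W) {x₁ y₁ x₂ y₂ : K} (h₁ : W.Nonsingular x₁ y₁)
    (h₂ : W.Nonsingular x₂ y₂) (hx₁ : v x₁ ≤ 1) (hx : v (x₁ - x₂) < 1) (hy : v (y₁ - y₂) < 1)
    (hns : NS v W x₁) :
    InE1 v (xX (W := W)) xZ ((.some x₁ y₁ h₁ : W.Point) - .some x₂ y₂ h₂) := by
  have hy₁ : v y₁ ≤ 1 := hW.y_le_one h₁.1 hx₁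
  have hx₂ : v x₂ ≤ 1 := by
    have : x₂ = x₁ - (x₁ - x₂) := by ring
    rw [this]; exact (v.map_sub _ _).trans (max_le hx₁ hx.le)
  by_cases hψ : v (y₁ - W.negY x₁ y₁) = 1
  · -- `ψ₂` is a unit
    have hneg : v (W.negY x₁ y₁ - W.negY x₂ y₂) < 1 := by
      have : W.negY x₁ y₁ - W.negY x₂ y₂ = -(y₁ - y₂) - W.a₁ * (x₁ - x₂) := by
        simp only [negY]; ring
      rw [this]
      refine (v.map_sub _ _).trans_lt (max_lt (by rwa [Valuation.map_neg]) ?_)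
      rw [map_mul]; exact lt_of_le_of_lt (mul_le_of_le_one_left' hW.a₁) hx
    have hnum : v (y₁ - W.negY x₂ y₂) = 1 := by
      have : y₁ - W.negY x₂ y₂ = (y₁ - W.negY x₁ y₁) + (W.negY x₁ y₁ - W.negY x₂ y₂) := by ring
      rw [this, Valuation.map_add_eq_of_lt_left v (by rw [hψ]; exact hneg), hψ]
    by_cases hxx : x₁ = x₂
    · rcases (X_eq_iff (h₁ := h₁) (h₂ := h₂)).mp hxx with h | h
      · rw [h, sub_self]
        simp [InE1]
      · exfalso
        rw [neg_some, Point.some.injEq] at h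
        rw [h.2] at hnum
        simp at hnum
    · have hxx' : x₁ - x₂ ≠ 0 := sub_ne_zero.mpr hxx
      have hsub : (.some x₁ y₁ h₁ : W.Point) - .some x₂ y₂ h₂ =
          .some _ _ (nonsingular_add h₁ ((W.nonsingular_neg x₂ y₂).mpr h₂)
            fun hxy => hxx hxy.left) := by
        rw [sub_eq_add_neg, neg_some]
        exact add_of_X_ne hxx
      rw [hsub, InE1, xX_some, xZ_some, map_one]
      simp only [addX, slope_of_X_ne hxx]
      set l := (y₁ - W.negY x₂ y₂) / (x₁ - x₂) with hl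
      have hvl : 1 < v l := by
        rw [hl, map_div₀, hnum]
        have h0 : 0 < v (x₁ - x₂) := lt_of_le_of_ne zero_le (Ne.symm (v.ne_zero_iff.mpr hxx'))
        exact (one_lt_div₀ h0).mpr hx
      have hvl2 : v l < v (l ^ 2) := by
        rw [pow_two, map_mul]
        exact lt_mul_of_one_lt_left (lt_trans zero_lt_one hvl) hvl
      have h1 : v (W.a₁ * l - W.a₂ - x₁ - x₂) ≤ v l := by
        refine (v.map_sub _ _).trans (max_le ((v.map_sub _ _).trans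
          (max_le ((v.map_sub _ _).trans (max_le ?_ ?_)) ?_)) ?_)
        · rw [map_mul]; exact mul_le_of_le_one_left' hW.a₁
        · exact hW.a₂.trans hvl.le
        · exact hx₁.trans hvl.le
        · exact hx₂.trans hvl.le
      have e : l ^ 2 + W.a₁ * l - W.a₂ - x₁ - x₂ = l ^ 2 + (W.a₁ * l - W.a₂ - x₁ - x₂) := by ring
      rw [e, Valuation.map_add_eq_of_lt_left v (lt_of_le_of_lt h1 hvl2)]
      exact hvl.trans hvl2
  · -- `ψ₂` is not a unit, so `φ₂` is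
    have hψ' : v (y₁ - W.negY x₁ y₁) < 1 := by
      refine lt_of_le_of_ne ?_ hψ
      refine (v.map_sub _ _).trans (max_le hy₁ ?_)
      simp only [negY]
      refine (v.map_sub _ _).trans (max_le ((v.map_sub _ _).trans (max_le ?_ ?_)) hW.a₃)
      · rwa [Valuation.map_neg]
      · rw [map_mul]; exact mul_le_one' hW.a₁ hx₁
    have hpsi : v (4 * x₁ ^ 3 + W.b₂ * x₁ ^ 2 + 2 * W.b₄ * x₁ + W.b₆) < 1 := by
      rw [← psi_sq h₁.1, map_pow]
      exact pow_lt_one₀ zero_le hψ' two_ne_zero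
    have hphi : v (x₁ ^ 4 - W.b₄ * x₁ ^ 2 - 2 * W.b₆ * x₁ - W.b₈) = 1 := by
      rcases hns with h | h
      · exact absurd h hpsi.ne
      · exact h
    have hx₁' : x₁ ∈ v.integer := hx₁
    have hx₂' : x₂ ∈ v.integer := hx₂
    have h2 : W.b₂ ∈ v.integer := hW.b₂
    have h4 : W.b₄ ∈ v.integer := hW.b₄
    have h6 : W.b₆ ∈ v.integer := hW.b₆
    have h8 : W.b₈ ∈ v.integer := hW.b₈
    refine ((isKummer W).inE1_of_F v zero_lt_one ?_ ?_ ?_).2
    · simp only [xX_some, xZ_some]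
      have e : F0 W.b₄ W.b₆ W.b₈ (x₁ * x₂) (x₁ * 1 + x₂ * 1) (1 * 1) =
          (x₁ ^ 4 - W.b₄ * x₁ ^ 2 - 2 * W.b₆ * x₁ - W.b₈) -
          (x₁ ^ 3 + x₁ ^ 2 * x₂ - W.b₄ * x₁ - W.b₆) * (x₁ - x₂) := by
        simp only [F0]; ring
      rw [e, Valuation.map_sub_eq_of_lt_left v, hphi]
      rw [hphi, map_mul]
      refine lt_of_le_of_lt (mul_le_of_le_one_left' ?_) hx
      exact sub_mem (sub_mem (add_mem (pow_mem hx₁' 3) (mul_mem (pow_mem hx₁' 2) hx₂'))
        (mul_mem h4 hx₁')) h6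
    · simp only [xX_some, xZ_some]
      have e : F1 W.b₂ W.b₄ W.b₆ (x₁ * x₂) (x₁ * 1 + x₂ * 1) (1 * 1) =
          (4 * x₁ ^ 3 + W.b₂ * x₁ ^ 2 + 2 * W.b₄ * x₁ + W.b₆) -
          (4 * x₁ ^ 2 + 2 * x₁ * x₂ + W.b₂ * x₁ + W.b₄) * (x₁ - x₂) := by
        simp only [F1]; ring
      rw [e]
      refine (v.map_sub _ _).trans_lt (max_lt hpsi ?_)
      rw [map_mul]
      refine lt_of_le_of_lt (mul_le_of_le_one_left' ?_) hx
      exact add_mem (add_mem (add_mem (mul_mem (ofNat_mem_integer v 4) (pow_mem hx₁' 2))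
        (mul_mem (mul_mem (ofNat_mem_integer v 2) hx₁') hx₂')) (mul_mem h2 hx₁')) h4
    · simp only [xX_some, xZ_some]
      have e : F2 (x₁ * x₂) (x₁ * 1 + x₂ * 1) (1 * 1) = (x₁ - x₂) ^ 2 := by
        simp only [F2]; ring
      rw [e, map_pow]
      exact pow_lt_one₀ zero_le hx two_ne_zero

/-- Kernel of reduction has no torsion of order prime to the residue characteristic. -/
theorem IsInt.eq_zero_of_inE1 (hW : IsInt v W) {P : W.Point} (hP : InE1 v (xX (W := W)) xZ P)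
    {n : ℕ} (hn : v (n : K) = 1) (hnP : n • P = 0) : P = 0 :=
  (xZ_eq_zero_iff P).mp ((isKummer W).eq_zero_of_nsmul_eq_zero v hW.b₂ hW.b₄ hW.b₆ hW.b₈ hP hn hnP)

end Curve

end Fermat.Agent.EC
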