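/-
Inertia acts trivially on prime-to-residue-characteristic torsion of elliptic curves with good
reduction, and more generally `σ P - P` lies in the kernel of reduction if `P` has nonsingular
reduction and `σ` is in the inertia group.
-/
import Fermat.Agent.EC.Nonsing
import Fermat.Prelude.Def_FLTPrelim_Ramification

set_option autoImplicit false

namespace Fermat.Agent.EC

open WeierstrassCurve WeierstrassCurve.Affine WeierstrassCurve.Affine.Point

open scoped Pointwise

section TrivMod

variable {K Γ₀ : Type*} [Field K] [LinearOrderedCommGroupWithZero Γ₀]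

/-- `σ` preserves the valuation ring and acts trivially on the residue field. -/
structure TrivMod (v : Valuation K Γ₀) (σ : K → K) : Prop where
  int : ∀ x, v x ≤ 1 → v (σ x - x) < 1
  pole : ∀ x, 1 < v x → 1 < v (σ x)

/-- elements of the inertia group act trivially modulo the valuation. -/
lemma trivMod_of_mem_inertia {k L : Type*} [Field k] [Field L] [Algebra k L]
    (A : ValuationSubring L) {σ : L ≃ₐ[k] L} (hσ : σ ∈ A.inertiaSubgroupIn k) :
    TrivMod A.valuation σ := by
  obtain ⟨τ, hτ, rfl⟩ := hσ
  have hτ' : MulSemiringAction.toRingAut (A.decompositionSubgroup k)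
      (IsLocalRing.ResidueField A) τ = 1 := hτ
  refine ⟨fun x hx => ?_, fun x hx => ?_⟩
  · have hxA : x ∈ A := (A.valuation_le_one_iff x).mp hx
    set a : A := ⟨x, hxA⟩ with ha
    have h1 : τ • (IsLocalRing.residue A a) = IsLocalRing.residue A a := by
      have := congrArg (fun f : RingAut (IsLocalRing.ResidueField A) =>
        f (IsLocalRing.residue A a)) hτ'
      simpa using this
    have h2 : IsLocalRing.residue A (τ • a) = IsLocalRing.residue A a := by
      rw [← h1]; rfl
    have h3 : τ • a - a ∈ IsLocalRing.maximalIdeal A := by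
      rw [← IsLocalRing.residue_eq_zero_iff, _root_.map_sub, h2, sub_self]
    have h4 := (A.valuation_lt_one_iff _).mp h3
    exact h4
  · -- poles
    have hmem : ((τ : L ≃ₐ[k] L) • A : ValuationSubring L) = A := τ.2
    rw [← not_le, A.valuation_le_one_iff] at hx ⊢
    intro h
    apply hx
    have hh : (τ : L ≃ₐ[k] L) • x ∈ A := h
    have : (τ : L ≃ₐ[k] L) • x ∈ (τ : L ≃ₐ[k] L) • A := by rw [hmem]; exact hh
    exact (ValuationSubring.smul_mem_pointwise_smul_iff).mp this

end TrivMod

section Galois

variable {R S K Γ₀ : Type*} [CommRing R] [CommRing S] [Field K] [DecidableEq K]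
  [LinearOrderedCommGroupWithZero Γ₀] [Algebra R S] [Algebra R K] [Algebra S K]
  [IsScalarTower R S K] {v : Valuation K Γ₀} {W' : Affine R}

/-- If `P` has nonsingular reduction and `σ` acts trivially on the residue field, `σ P - P` is in
the kernel of reduction. -/
theorem smul_sub_inE1 (hW : IsInt v (W'⁄K)) {σ : K ≃ₐ[S] K} (hσ : TrivMod v σ)
    (P : (W'⁄K).Point) (hP : v (xX P) ≤ v (xZ P) → NS v (W'⁄K) (xX P)) :
    InE1 v (xX (W := W'⁄K)) xZ (σ • P - P) := by
  rcases P with _ | ⟨x, y, h⟩
  · have : σ • (Point.zero : (W'⁄K).Point) - Point.zero = 0 := by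
      change σ • (0 : (W'⁄K).Point) - 0 = 0
      rw [smul_zero, sub_zero]
    rw [this]
    simp [InE1]
  · by_cases hx : v x ≤ 1
    · have hns : NS v (W'⁄K) x := hP (by simpa using hx)
      have hy : v y ≤ 1 := hW.y_le_one h.1 hx
      have hσP : σ • (.some x y h : (W'⁄K).Point) = .some (σ x) (σ y)
        ((W'.baseChange_nonsingular (f := σ.toAlgHom) σ.toAlgHom.injective ..).mpr h) := rfl
      have key := hW.sub_inE1 h
        ((W'.baseChange_nonsingular (f := σ.toAlgHom) σ.toAlgHom.injective ..).mpr h)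
        hx (by rw [Valuation.map_sub_swap]; exact hσ.int x hx)
        (by rw [Valuation.map_sub_swap]; exact hσ.int y hy) hns
      have e : σ • (.some x y h : (W'⁄K).Point) - .some x y h =
        -((.some x y h : (W'⁄K).Point) - .some (σ x) (σ y)
        ((W'.baseChange_nonsingular (f := σ.toAlgHom) σ.toAlgHom.injective ..).mpr h)) := by
        rw [hσP]; abel
      rw [e]
      unfold InE1 at key ⊢
      rw [xZ_neg, xX_neg]
      exact key
    · rw [not_le] at hx
      have h1 : InE1 v (xX (W := W'⁄K)) xZ (.some x y h) := by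
        simpa [InE1] using hx
      have h2 : InE1 v (xX (W := W'⁄K)) xZ (σ • (.some x y h : (W'⁄K).Point)) := by
        change v 1 < v (σ x)
        rw [Valuation.map_one]
        exact hσ.pole x hx
      exact ((isKummer (W'⁄K)).inE1_add_sub v hW.b₂ hW.b₄ hW.b₆ hW.b₈ h2 h1).2

/-- if `P ∈ E₀` and `σ P - P` is killed by `n` prime to the residue characteristic then
`σ P = P`. -/
theorem smul_eq_of_ns (hW : IsInt v (W'⁄K)) {σ : K ≃ₐ[S] K} (hσ : TrivMod v σ)
    (P : (W'⁄K).Point) (hP : v (xX P) ≤ v (xZ P) → NS v (W'⁄K) (xX P)) {n : ℕ}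
    (hn : v (n : K) = 1) (hnP : n • (σ • P - P) = 0) : σ • P = P :=
  sub_eq_zero.mp (hW.eq_zero_of_inE1 (smul_sub_inE1 hW hσ P hP) hn hnP)

/-- Good reduction: `σ` acting trivially on the residue field acts trivially on `n`-torsion. -/
theorem smul_eq_of_good (hW : IsInt v (W'⁄K)) (hΔ : v (W'⁄K).Δ = 1) {σ : K ≃ₐ[S] K}
    (hσ : TrivMod v σ) {n : ℕ} (hn : v (n : K) = 1) (P : (W'⁄K).Point) (hnP : n • P = 0) :
    σ • P = P := by
  refine smul_eq_of_ns hW hσ P (fun h => ?_) hn ?_
  · rcases P with _ | ⟨x, y, h'⟩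
    · simp [← zero_def] at h
    · exact hW.ns_of_Δ hΔ (by simpa using h)
  · rw [nsmul_sub, hnP, sub_zero]
    have : n • (σ • P) = σ • (n • P) := by
      rw [smul_comm]
    rw [this, hnP, smul_zero]

end Galois

end Fermat.Agent.EC
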