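/-
Component group of multiplicative reduction via the Kummer line.

For a Kummer structure with `b₄ = 2β`, `b₆ = 0`, `b₈ = -β²` (i.e. `y² = x³ + (b₂/4) x² + β x`
essentially) with `b₂` a unit and `0 < v β < 1`, define `C P = max (v (x P)) (v β)` (normalised
coordinates). It behaves like `±` the component of `P` in `Γ / (v β)^(2ℤ)`.
-/
import Fermat.Agent.EC.Nonsing

set_option autoImplicit false

namespace Fermat.Agent.EC

section Sim

variable {Γ₀ : Type*} [LinearOrderedCommGroupWithZero Γ₀]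

/-- `b = a^{±1} g^{2k}` -/
def Sim (g a b : Γ₀) : Prop := ∃ k : ℤ, b = a * g ^ (2 * k) ∨ b = a⁻¹ * g ^ (2 * k)

variable {g a b c : Γ₀}

lemma Sim.refl (g a : Γ₀) : Sim g a a := ⟨0, Or.inl (by simp)⟩

lemma Sim.of_eq (h : a = b) : Sim g a b := h ▸ Sim.refl g a

lemma Sim.inv_right (h : Sim g a b) : Sim g a b⁻¹ := by
  obtain ⟨k, h | h⟩ := h
  · refine ⟨-k, Or.inr ?_⟩
    rw [h, mul_inv, mul_neg, zpow_neg]
  · refine ⟨-k, Or.inl ?_⟩
    rw [h, mul_inv, inv_inv, mul_neg, zpow_neg]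

lemma Sim.symm (hg : g ≠ 0) (h : Sim g a b) : Sim g b a := by
  obtain ⟨k, h | h⟩ := h
  · refine ⟨-k, Or.inl ?_⟩
    rw [h, mul_assoc, ← zpow_add₀ hg]
    simp
  · refine ⟨k, Or.inr ?_⟩
    rw [h, mul_inv, inv_inv, mul_assoc, ← zpow_neg, ← zpow_add₀ hg]
    simp

lemma Sim.trans (hg : g ≠ 0) (h : Sim g a b) (h' : Sim g b c) : Sim g a c := by
  obtain ⟨k, h | h⟩ := h <;> obtain ⟨l, h' | h'⟩ := h'
  · refine ⟨k + l, Or.inl ?_⟩
    rw [h', h, mul_assoc, ← zpow_add₀ hg]; congr 2; ring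
  · refine ⟨-k + l, Or.inr ?_⟩
    rw [h', h, mul_inv, ← zpow_neg, mul_assoc, ← zpow_add₀ hg]; congr 2; ring
  · refine ⟨k + l, Or.inr ?_⟩
    rw [h', h, mul_assoc, ← zpow_add₀ hg]; congr 2; ring
  · refine ⟨-k + l, Or.inl ?_⟩
    rw [h', h, mul_inv, inv_inv, ← zpow_neg, mul_assoc, ← zpow_add₀ hg]; congr 2; ring

/-- the unordered pairs `{a, b}` and `{c, d}` agree up to `Sim`. -/
def PairSim (g a b c d : Γ₀) : Prop := (Sim g a c ∧ Sim g b d) ∨ (Sim g a d ∧ Sim g b c)

lemma mul_eq_one_of_le {a b : Γ₀} (ha : a ≤ 1) (hb : b ≤ 1) (h : a * b = 1) : a = 1 ∧ b = 1 := by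
  have ha' : a = 1 := by
    refine le_antisymm ha ?_
    calc (1 : Γ₀) = a * b := h.symm
      _ ≤ a * 1 := by gcongr
      _ = a := mul_one a
  exact ⟨ha', by rwa [ha', one_mul] at h⟩

lemma eq_of_le_of_mul_eq {a b r : Γ₀} (hr : 0 < r) (ha : a ≤ r) (hb : b ≤ r)
    (h : a * b = r ^ 2) : a = r ∧ b = r := by
  have h1 : (a / r) * (b / r) = 1 := by
    rw [div_mul_div_comm, h, pow_two, div_self (mul_ne_zero hr.ne' hr.ne')]
  obtain ⟨h2, h3⟩ := mul_eq_one_of_le ((div_le_one₀ hr).mpr ha) ((div_le_one₀ hr).mpr hb) h1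
  exact ⟨by rwa [div_eq_one_iff_eq hr.ne'] at h2, by rwa [div_eq_one_iff_eq hr.ne'] at h3⟩

end Sim

section Val

variable {K Γ₀ : Type*} [Field K] [LinearOrderedCommGroupWithZero Γ₀] (v : Valuation K Γ₀)

/-- Gauss lemma for a product of two linear forms. -/
lemma gauss {a b c d : K} (h1 : max (v a) (v b) = 1) (h2 : max (v c) (v d) = 1) :
    (v (a * c) ≤ 1 ∧ v (a * d + c * b) ≤ 1 ∧ v (b * d) ≤ 1) ∧
    (v (a * c) = 1 ∨ v (a * d + c * b) = 1 ∨ v (b * d) = 1) := by
  have ha : v a ≤ 1 := h1 ▸ le_max_left _ _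
  have hb : v b ≤ 1 := h1 ▸ le_max_right _ _
  have hc : v c ≤ 1 := h2 ▸ le_max_left _ _
  have hd : v d ≤ 1 := h2 ▸ le_max_right _ _
  refine ⟨⟨?_, ?_, ?_⟩, ?_⟩
  · rw [map_mul]; exact mul_le_one' ha hc
  · refine (v.map_add _ _).trans (max_le ?_ ?_) <;> rw [map_mul]
    · exact mul_le_one' ha hd
    · exact mul_le_one' hc hb
  · rw [map_mul]; exact mul_le_one' hb hd
  · have h1' : v a = 1 ∨ v b = 1 := by
      rcases max_choice (v a) (v b) with h | h
      · left; rw [← h, h1]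
      · right; rw [← h, h1]
    have h2' : v c = 1 ∨ v d = 1 := by
      rcases max_choice (v c) (v d) with h | h
      · left; rw [← h, h2]
      · right; rw [← h, h2]
    by_cases hac : v a = 1 ∧ v c = 1
    · left; rw [map_mul, hac.1, hac.2, one_mul]
    by_cases hbd : v b = 1 ∧ v d = 1
    · right; right; rw [map_mul, hbd.1, hbd.2, one_mul]
    right; left
    rcases h1' with h1' | h1'
    · -- v a = 1, so v c ≠ 1, v d = 1, v b ≠ 1
      have hc' : v c ≠ 1 := fun h => hac ⟨h1', h⟩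
      have hd' : v d = 1 := h2'.resolve_left hc'
      have hb' : v b ≠ 1 := fun h => hbd ⟨h, hd'⟩
      have : v (c * b) < v (a * d) := by
        rw [map_mul, map_mul, h1', hd', one_mul]
        exact mul_lt_one_of_nonneg_of_lt_one_left zero_le (lt_of_le_of_ne hc hc') hb
      rw [Valuation.map_add_eq_of_lt_left v this, map_mul, h1', hd', one_mul]
    · have hd' : v d ≠ 1 := fun h => hbd ⟨h1', h⟩
      have hc' : v c = 1 := h2'.resolve_right hd'
      have ha' : v a ≠ 1 := fun h => hac ⟨h, hc'⟩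
      have : v (a * d) < v (c * b) := by
        rw [map_mul, map_mul, h1', hc', one_mul]
        exact mul_lt_one_of_nonneg_of_lt_one_left zero_le (lt_of_le_of_ne ha ha') hd
      rw [Valuation.map_add_eq_of_lt_right v this, map_mul, h1', hc', one_mul]

lemma val_le_of_sum_prod_le' {a b : K} {r : Γ₀} (hs : v (a + b) ≤ r) (hp : v (a * b) ≤ r ^ 2) :
    v a ≤ r ∧ v b ≤ r :=
  ⟨val_le_of_sum_prod_le v hs hp,
    val_le_of_sum_prod_le v (by rwa [add_comm]) (by rwa [mul_comm])⟩

/-- distinct slopes: if `v(a+b)² > v(ab)` then one of `a`, `b` has valuation `v(a+b)`. -/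
lemma val_of_sum_prod_lt {a b : K} (h : v (a * b) < v (a + b) ^ 2) :
    v a = v (a + b) ∨ v b = v (a + b) := by
  rcases lt_trichotomy (v a) (v b) with h1 | h1 | h1
  · right; rw [Valuation.map_add_eq_of_lt_right v h1]
  · exfalso
    have h2 : v (a + b) ≤ v a := (v.map_add _ _).trans (max_le le_rfl h1.ge)
    have h3 : v (a * b) = v a ^ 2 := by rw [map_mul, ← h1, pow_two]
    rw [h3] at h
    exact absurd (pow_le_pow_left₀ zero_le h2 2) (not_le.mpr h)
  · left; rw [Valuation.map_add_eq_of_lt_left v h1]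

variable {v}

/-- Lemma L -/
lemma sim_L {β x₁ x₂ z₁ z₂ : K} (hβ : 0 < v β) (hx₁ : v β < v x₁) (hx₂ : v β < v x₂)
    (hz₁ : v z₁ = 1) (hz₂ : v z₂ = 1) :
    Sim (v β) (max (v (x₁ * x₂ - β * (z₁ * z₂)) ^ 2 / (v x₁ * v x₂)) (v β)) (v x₁ * v x₂) := by
  have h1 : 0 < v x₁ := hβ.trans hx₁
  have h2 : 0 < v x₂ := hβ.trans hx₂
  have h12 : 0 < v x₁ * v x₂ := mul_pos h1 h2
  have hw : v (β * (z₁ * z₂)) = v β := by rw [map_mul, map_mul, hz₁, hz₂, one_mul, mul_one]
  rcases lt_trichotomy (v x₁ * v x₂) (v β) with h | h | h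
  · have : v (x₁ * x₂ - β * (z₁ * z₂)) = v β := by
      rw [Valuation.map_sub_eq_of_lt_right v, hw]
      rwa [hw, map_mul]
    rw [this]
    have hlt : v β < v β ^ 2 / (v x₁ * v x₂) := by
      rw [lt_div_iff₀ h12, pow_two]
      exact mul_lt_mul_of_pos_left h hβ
    rw [max_eq_left hlt.le]
    refine ⟨1, Or.inr ?_⟩
    rw [inv_div]
    have hβ' : v β ≠ 0 := hβ.ne'
    rw [mul_one]
    rw [show ((2 : ℤ)) = ((2 : ℕ) : ℤ) by rfl, zpow_natCast]
    rw [div_mul_cancel₀ _ (pow_ne_zero 2 hβ')]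
  · have hle : v (x₁ * x₂ - β * (z₁ * z₂)) ≤ v β := by
      refine (v.map_sub _ _).trans (max_le ?_ hw.le)
      rw [map_mul]; exact h.le
    have : v (x₁ * x₂ - β * (z₁ * z₂)) ^ 2 / (v x₁ * v x₂) ≤ v β := by
      rw [div_le_iff₀ h12, h, ← pow_two]
      exact pow_le_pow_left₀ zero_le hle 2
    rw [max_eq_right this, h]
    exact Sim.refl _ _
  · have : v (x₁ * x₂ - β * (z₁ * z₂)) = v x₁ * v x₂ := by
      rw [Valuation.map_sub_eq_of_lt_left v, map_mul]
      rwa [hw, map_mul]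
    rw [this, pow_two, mul_div_assoc, div_self h12.ne', mul_one, max_eq_left h.le]
    exact Sim.refl _ _

/-- from the Gauss lemma, the valuation of the scaling factor `μ` -/
lemma mu_eq {μ f0 f1 f2 : K} {xp zp xm zm : K}
    (np : max (v xp) (v zp) = 1) (nm : max (v xm) (v zm) = 1)
    (e0 : xp * xm = μ * f0) (e1 : xp * zm + xm * zp = μ * f1) (e2 : zp * zm = μ * f2)
    {r : Γ₀} (h0 : v f0 ≤ r) (h1 : v f1 ≤ r) (h2 : v f2 ≤ r)
    (h : v f0 = r ∨ v f1 = r ∨ v f2 = r) : v μ * r = 1 := by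
  obtain ⟨⟨g0, g1, g2⟩, g3⟩ := gauss v np nm
  rw [e0] at g0 g3
  rw [e1] at g1 g3
  rw [e2] at g2 g3
  rw [map_mul] at g0 g1 g2
  rw [map_mul, map_mul, map_mul] at g3
  apply le_antisymm
  · rcases h with h | h | h
    · rwa [← h]
    · rwa [← h]
    · rwa [← h]
  · rcases g3 with g3 | g3 | g3 <;> rw [← g3] <;> gcongr

/-- The pair lemma under the assumption `C x₂ ≤ C x₁`. -/
lemma pair_lemma_aux {β b₂ x₁ z₁ x₂ z₂ xp zp xm zm μ : K}
    (hβ : 0 < v β) (hβ1 : v β < 1) (hb₂ : v b₂ = 1)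
    (n1 : max (v x₁) (v z₁) = 1) (n2 : max (v x₂) (v z₂) = 1)
    (np : max (v xp) (v zp) = 1) (nm : max (v xm) (v zm) = 1)
    (e0 : xp * xm = μ * (x₁ * x₂ - β * (z₁ * z₂)) ^ 2)
    (e1 : xp * zm + xm * zp = μ * (2 * (x₁ * z₂ + x₂ * z₁) * (x₁ * x₂ + β * (z₁ * z₂)) +
      b₂ * (x₁ * x₂) * (z₁ * z₂)))
    (e2 : zp * zm = μ * (x₁ * z₂ - x₂ * z₁) ^ 2)
    (hle : max (v x₂) (v β) ≤ max (v x₁) (v β)) :
    PairSim (v β) (max (v xp) (v β)) (max (v xm) (v β))
      (max (v x₁) (v β) * max (v x₂) (v β)) (max (v x₁) (v β) / max (v x₂) (v β)) := by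
  have hx₁ : v x₁ ≤ 1 := n1 ▸ le_max_left _ _
  have hz₁ : v z₁ ≤ 1 := n1 ▸ le_max_right _ _
  have hx₂ : v x₂ ≤ 1 := n2 ▸ le_max_left _ _
  have hz₂ : v z₂ ≤ 1 := n2 ▸ le_max_right _ _
  have hxp : v xp ≤ 1 := np ▸ le_max_left _ _
  have hzp : v zp ≤ 1 := np ▸ le_max_right _ _
  have hxm : v xm ≤ 1 := nm ▸ le_max_left _ _
  have hzm : v zm ≤ 1 := nm ▸ le_max_right _ _
  have h2 : v (2 : K) ≤ 1 := by exact_mod_cast val_natCast_le_one v 2
  have hzz : v (z₁ * z₂) ≤ 1 := by rw [map_mul]; exact mul_le_one' hz₁ hz₂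
  have hβz : v (β * (z₁ * z₂)) ≤ v β := by rw [map_mul]; exact mul_le_of_le_one_right' hzz
  have hxz : v (x₁ * z₂ + x₂ * z₁) ≤ max (v x₁) (v x₂) := by
    refine (v.map_add _ _).trans (max_le_max ?_ ?_) <;> rw [map_mul]
    · exact mul_le_of_le_one_right' hz₂
    · exact mul_le_of_le_one_right' hz₁
  have hxz' : v (x₁ * z₂ - x₂ * z₁) ≤ max (v x₁) (v x₂) := by
    refine (v.map_sub _ _).trans (max_le_max ?_ ?_) <;> rw [map_mul]
    · exact mul_le_of_le_one_right' hz₂
    · exact mul_le_of_le_one_right' hz₁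
  have hw : v (x₁ * x₂ - β * (z₁ * z₂)) ≤ max (v x₁ * v x₂) (v β) := by
    refine (v.map_sub _ _).trans (max_le_max ?_ hβz); rw [map_mul]
  have hw' : v (x₁ * x₂ + β * (z₁ * z₂)) ≤ max (v x₁ * v x₂) (v β) := by
    refine (v.map_add _ _).trans (max_le_max ?_ hβz); rw [map_mul]
  have hA : v (2 * (x₁ * z₂ + x₂ * z₁) * (x₁ * x₂ + β * (z₁ * z₂))) ≤
      max (v x₁) (v x₂) * max (v x₁ * v x₂) (v β) := by
    rw [map_mul, map_mul]
    calc v 2 * v (x₁ * z₂ + x₂ * z₁) * v (x₁ * x₂ + β * (z₁ * z₂))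
        ≤ 1 * max (v x₁) (v x₂) * max (v x₁ * v x₂) (v β) := by gcongr
      _ = _ := by rw [one_mul]
  have hB : v (b₂ * (x₁ * x₂) * (z₁ * z₂)) ≤ v x₁ * v x₂ := by
    rw [map_mul, map_mul, hb₂, one_mul, map_mul v x₁]
    exact mul_le_of_le_one_right' hzz
  rcases hx₁.lt_or_eq with hx₁' | hx₁'
  swap
  · -- Case 1 : `v x₁ = 1`
    rcases hx₂.lt_or_eq with hx₂' | hx₂'
    swap
    · -- Case 1a
      have hv0 : v (x₁ * x₂ - β * (z₁ * z₂)) = 1 := by
        rw [Valuation.map_sub_eq_of_lt_left v, map_mul, hx₁', hx₂', one_mul]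
        rw [map_mul v x₁, hx₁', hx₂', one_mul]
        exact hβz.trans_lt hβ1
      have hμ : v μ * 1 = 1 := by
        refine mu_eq np nm e0 e1 e2 ?_ ?_ ?_ (Or.inl ?_)
        · rw [map_pow, hv0, one_pow]
        · refine (v.map_add _ _).trans (max_le (hA.trans ?_) (hB.trans ?_))
          · rw [hx₁', hx₂']; simp [hβ1.le]
          · rw [hx₁', hx₂']; simp
        · rw [map_pow]
          refine pow_le_one' (hxz'.trans ?_) 2
          rw [hx₁', hx₂']; simp
        · rw [map_pow, hv0, one_pow]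
      rw [mul_one] at hμ
      have := congrArg v e0
      rw [map_mul, map_mul, hμ, map_pow, hv0, one_pow, one_mul] at this
      obtain ⟨ep, em⟩ := mul_eq_one_of_le hxp hxm this
      left
      rw [ep, em, hx₁', hx₂', max_eq_left hβ1.le, one_mul, div_one]
      exact ⟨Sim.refl _ _, Sim.refl _ _⟩
    · -- Case 1b
      have hz₂' : v z₂ = 1 := by
        rcases max_choice (v x₂) (v z₂) with h | h
        · rw [n2] at h; exact absurd h.symm hx₂'.ne
        · rw [← h, n2]
      have hv2 : v (x₁ * z₂ - x₂ * z₁) = 1 := by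
        have hlt : v (x₂ * z₁) < v (x₁ * z₂) := by
          rw [map_mul, map_mul, hx₁', hz₂', one_mul]
          exact mul_lt_one_of_nonneg_of_lt_one_left zero_le hx₂' hz₁
        rw [Valuation.map_sub_eq_of_lt_left v hlt, map_mul, hx₁', hz₂', one_mul]
      have hμ : v μ * 1 = 1 := by
        refine mu_eq np nm e0 e1 e2 ?_ ?_ ?_ (Or.inr (Or.inr ?_))
        · rw [map_pow]
          refine pow_le_one' (hw.trans ?_) 2
          rw [hx₁', one_mul]; exact max_le hx₂ hβ1.le
        · refine (v.map_add _ _).trans (max_le (hA.trans ?_) (hB.trans ?_))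
          · rw [hx₁', one_mul, max_eq_left hx₂, one_mul]; exact max_le hx₂ hβ1.le
          · rw [hx₁', one_mul]; exact hx₂
        · rw [map_pow, hv2, one_pow]
        · rw [map_pow, hv2, one_pow]
      rw [mul_one] at hμ
      have hzpm := congrArg v e2
      rw [map_mul, map_mul, hμ, map_pow, hv2, one_pow, one_mul] at hzpm
      obtain ⟨ezp, ezm⟩ := mul_eq_one_of_le hzp hzm hzpm
      set c₂ := max (v x₂) (v β) with hc₂
      have hc₂0 : 0 < c₂ := lt_of_lt_of_le hβ (le_max_right _ _)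
      have hw2 : v (x₁ * x₂ - β * (z₁ * z₂)) ≤ c₂ := by
        refine hw.trans ?_; rw [hx₁', one_mul]
      have hs : v (xp * zm + xm * zp) ≤ c₂ := by
        rw [e1, map_mul, hμ, one_mul]
        refine (v.map_add _ _).trans (max_le (hA.trans ?_) (hB.trans ?_))
        · rw [hx₁', one_mul, max_eq_left hx₂, one_mul]
        · rw [hx₁', one_mul]; exact le_max_left _ _
      have hprod : v ((xp * zm) * (xm * zp)) = v (x₁ * x₂ - β * (z₁ * z₂)) ^ 2 := by
        have e : (xp * zm) * (xm * zp) = (xp * xm) * (zp * zm) := by ring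
        rw [e, map_mul, map_mul v zp, ezp, ezm, mul_one, mul_one, e0, map_mul, hμ, one_mul,
          map_pow]
      have hp : v ((xp * zm) * (xm * zp)) ≤ c₂ ^ 2 := by
        rw [hprod]
        exact pow_le_pow_left₀ zero_le hw2 2
      obtain ⟨hp1, hp2⟩ := val_le_of_sum_prod_le' v hs hp
      rw [map_mul, ezm, mul_one] at hp1
      rw [map_mul, ezp, mul_one] at hp2
      have hCp : max (v xp) (v β) = c₂ ∧ max (v xm) (v β) = c₂ := by
        rcases le_or_gt (v x₂) (v β) with h | h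
        · have : c₂ = v β := max_eq_right h
          rw [this] at hp1 hp2 ⊢
          exact ⟨max_eq_right hp1, max_eq_right hp2⟩
        · have hc : c₂ = v x₂ := max_eq_left h.le
          have hv0 : v (x₁ * x₂ - β * (z₁ * z₂)) = c₂ := by
            rw [Valuation.map_sub_eq_of_lt_left v, map_mul, hx₁', one_mul, hc]
            rw [map_mul v x₁, hx₁', one_mul]
            exact hβz.trans_lt h
          have : v xp * v xm = c₂ ^ 2 := by
            rw [← map_mul, e0, map_mul, hμ, one_mul, map_pow, hv0]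
          obtain ⟨h3, h4⟩ := eq_of_le_of_mul_eq hc₂0 hp1 hp2 this
          rw [h3, h4]
          exact ⟨max_eq_left (le_max_right _ _), max_eq_left (le_max_right _ _)⟩
      rw [hCp.1, hCp.2, hx₁', max_eq_left hβ1.le, one_mul, one_div]
      left
      exact ⟨Sim.refl _ _, (Sim.refl _ _).inv_right⟩
  · -- Case 2 : `v x₁ < 1`
    have hz₁' : v z₁ = 1 := by
      rcases max_choice (v x₁) (v z₁) with h | h
      · rw [n1] at h; exact absurd h.symm hx₁'.ne
      · rw [← h, n1]
    have hx₂' : v x₂ < 1 :=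
      lt_of_le_of_lt ((le_max_left _ _).trans hle) (max_lt hx₁' hβ1)
    have hz₂' : v z₂ = 1 := by
      rcases max_choice (v x₂) (v z₂) with h | h
      · rw [n2] at h; exact absurd h.symm hx₂'.ne
      · rw [← h, n2]
    have hzz' : v (z₁ * z₂) = 1 := by rw [map_mul, hz₁', hz₂', one_mul]
    have hβz' : v (β * (z₁ * z₂)) = v β := by rw [map_mul, hzz', mul_one]
    rcases le_or_gt (v x₁) (v β) with h1 | h1
    · -- Case 2c
      have hm1 : max (v x₁) (v β) = v β := max_eq_right h1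
      have hm2 : max (v x₂) (v β) = v β := le_antisymm (hle.trans hm1.le) (le_max_right _ _)
      have h2' : v x₂ ≤ v β := max_eq_right_iff.mp hm2
      have h12 : v x₁ * v x₂ < v β := by
        calc v x₁ * v x₂ ≤ v β * v x₂ := by gcongr
          _ < v β * 1 := mul_lt_mul_of_pos_left hx₂' hβ
          _ = v β := mul_one _
      have hv0 : v (x₁ * x₂ - β * (z₁ * z₂)) = v β := by
        rw [Valuation.map_sub_eq_of_lt_right v, hβz']
        rwa [hβz', map_mul]
      have hμ : v μ * v β ^ 2 = 1 := by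
        refine mu_eq np nm e0 e1 e2 ?_ ?_ ?_ (Or.inl ?_)
        · rw [map_pow, hv0]
        · refine (v.map_add _ _).trans (max_le (hA.trans ?_) (hB.trans ?_))
          · rw [max_eq_right h12.le, pow_two]
            exact mul_le_mul_left (max_le h1 h2') _
          · rw [pow_two]; exact mul_le_mul' h1 h2'
        · rw [map_pow]
          exact pow_le_pow_left₀ zero_le (hxz'.trans (max_le h1 h2')) 2
        · rw [map_pow, hv0]
      have := congrArg v e0
      rw [map_mul, map_mul, map_pow, hv0, hμ] at this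
      obtain ⟨ep, em⟩ := mul_eq_one_of_le hxp hxm this
      left
      rw [ep, em, hm1, hm2, max_eq_left hβ1.le, div_self hβ.ne']
      refine ⟨⟨1, Or.inl ?_⟩, Sim.refl _ _⟩
      rw [one_mul, mul_one, ← pow_two]
      exact (zpow_natCast _ 2).symm
    · have hm1 : max (v x₁) (v β) = v x₁ := max_eq_left h1.le
      have hx₁0 : 0 < v x₁ := hβ.trans h1
      have h12 : v x₁ * v x₂ ≤ v x₂ := mul_le_of_le_one_left' hx₁
      have h12' : v x₁ * v x₂ < v x₁ := by
        calc v x₁ * v x₂ < v x₁ * 1 := mul_lt_mul_of_pos_left hx₂' hx₁0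
          _ = v x₁ := mul_one _
      rcases (show v x₂ ≤ v x₁ from (le_max_left _ _).trans (hle.trans hm1.le)).lt_or_eq
        with h21 | h21
      swap
      · -- Case 2b : `v x₁ = v x₂`
        have h2 : v β < v x₂ := by rw [h21]; exact h1
        have hm2 : max (v x₂) (v β) = v x₁ := by rw [h21]; exact hm1
        have hmax : max (v x₁ * v x₂) (v β) < v x₁ := max_lt h12' h1
        have hv1 : v (2 * (x₁ * z₂ + x₂ * z₁) * (x₁ * x₂ + β * (z₁ * z₂)) +
            b₂ * (x₁ * x₂) * (z₁ * z₂)) = v x₁ ^ 2 := by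
          rw [Valuation.map_add_eq_of_lt_right v, map_mul, map_mul, hb₂, hzz', map_mul, h21,
            one_mul, mul_one, pow_two]
          rw [map_mul v (b₂ * (x₁ * x₂)), map_mul v b₂, hb₂, hzz', map_mul v x₁ x₂, h21, one_mul,
            mul_one]
          refine hA.trans_lt ?_
          rw [h21, max_self]
          rw [h21] at hmax
          exact mul_lt_mul_of_pos_left hmax hx₁0
        have hw0 : v ((x₁ * x₂ - β * (z₁ * z₂)) ^ 2) < v x₁ ^ 2 := by
          rw [map_pow]
          exact pow_lt_pow_left₀ (hw.trans_lt hmax) zero_le two_ne_zero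
        have hμ : v μ * v x₁ ^ 2 = 1 := by
          refine mu_eq np nm e0 e1 e2 hw0.le hv1.le ?_ (Or.inr (Or.inl hv1))
          rw [map_pow]
          refine pow_le_pow_left₀ zero_le (hxz'.trans ?_) 2
          rw [h21, max_self]
        have hμ' : v μ = (v x₁ ^ 2)⁻¹ := eq_inv_of_mul_eq_one_left hμ
        have hs : v (xp * zm + xm * zp) = 1 := by
          rw [e1, map_mul, hv1, hμ]
        have hpr : v xp * v xm = v (x₁ * x₂ - β * (z₁ * z₂)) ^ 2 / (v x₁ * v x₂) := by
          rw [← map_mul, e0, map_mul, map_pow, hμ', h21, pow_two (v x₁), mul_comm, div_eq_mul_inv]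
        have hL := sim_L hβ h1 h2 hz₁' hz₂'
        rw [← hpr] at hL
        rw [hm1, hm2, div_self hx₁0.ne']
        have hor : v (xp * zm) = 1 ∨ v (xm * zp) = 1 := by
          by_contra hcon
          rw [not_or] at hcon
          have : v (xp * zm + xm * zp) < 1 := by
            refine (v.map_add _ _).trans_lt (max_lt ?_ ?_)
            · refine lt_of_le_of_ne ?_ hcon.1
              rw [map_mul]; exact mul_le_one' hxp hzm
            · refine lt_of_le_of_ne ?_ hcon.2
              rw [map_mul]; exact mul_le_one' hxm hzp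
          exact absurd hs this.ne
        rw [h21] at hL
        rcases hor with h | h
        · rw [map_mul] at h
          obtain ⟨h3, -⟩ := mul_eq_one_of_le hxp hzm h
          rw [h3, one_mul] at hL
          right
          rw [h3, max_eq_left hβ1.le]
          exact ⟨Sim.refl _ _, hL⟩
        · rw [map_mul] at h
          obtain ⟨h3, -⟩ := mul_eq_one_of_le hxm hzp h
          rw [h3, mul_one] at hL
          left
          rw [h3, max_eq_left hβ1.le]
          exact ⟨hL, Sim.refl _ _⟩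
      · -- Case 2a : `v x₂ < v x₁`
        have hmaxx : max (v x₁) (v x₂) = v x₁ := max_eq_left h21.le
        have hv2 : v (x₁ * z₂ - x₂ * z₁) = v x₁ := by
          have hlt : v (x₂ * z₁) < v (x₁ * z₂) := by
            rw [map_mul, map_mul, hz₁', hz₂', mul_one, mul_one]; exact h21
          rw [Valuation.map_sub_eq_of_lt_left v hlt, map_mul, hz₂', mul_one]
        set c₂ := max (v x₂) (v β) with hc₂
        have hc₂1 : c₂ < v x₁ := max_lt h21 h1
        have hc₂0 : 0 < c₂ := lt_of_lt_of_le hβ (le_max_right _ _)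
        have hmc : max (v x₁ * v x₂) (v β) ≤ c₂ := max_le_max h12 le_rfl
        have hv1 : v (2 * (x₁ * z₂ + x₂ * z₁) * (x₁ * x₂ + β * (z₁ * z₂)) +
            b₂ * (x₁ * x₂) * (z₁ * z₂)) ≤ v x₁ * c₂ := by
          refine (v.map_add _ _).trans (max_le (hA.trans ?_) (hB.trans ?_))
          · rw [hmaxx]; exact mul_le_mul_right hmc _
          · exact mul_le_mul_right (le_max_left _ _) _
        have hμ : v μ * v x₁ ^ 2 = 1 := by
          refine mu_eq np nm e0 e1 e2 ?_ ?_ ?_ (Or.inr (Or.inr ?_))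
          · rw [map_pow]
            exact pow_le_pow_left₀ zero_le (hw.trans (hmc.trans hc₂1.le)) 2
          · refine hv1.trans ?_
            rw [pow_two]; exact mul_le_mul_right hc₂1.le _
          · rw [map_pow, hv2]
          · rw [map_pow, hv2]
        have hμ' : v μ = (v x₁ ^ 2)⁻¹ := eq_inv_of_mul_eq_one_left hμ
        have hzpm := congrArg v e2
        rw [map_mul, map_mul, map_pow, hv2, hμ] at hzpm
        obtain ⟨ezp, ezm⟩ := mul_eq_one_of_le hzp hzm hzpm
        have evp : v (xp * zm) = v xp := by rw [map_mul, ezm, mul_one]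
        have evm : v (xm * zp) = v xm := by rw [map_mul, ezp, mul_one]
        have hpr : v xp * v xm = (v (x₁ * x₂ - β * (z₁ * z₂)) / v x₁) ^ 2 := by
          rw [← map_mul, e0, map_mul, map_pow, hμ', div_pow, mul_comm, div_eq_mul_inv]
        have hs : v (xp * zm + xm * zp) ≤ c₂ / v x₁ := by
          rw [e1, map_mul, hμ', le_div_iff₀ hx₁0]
          calc (v x₁ ^ 2)⁻¹ * v (2 * (x₁ * z₂ + x₂ * z₁) * (x₁ * x₂ + β * (z₁ * z₂)) +
                  b₂ * (x₁ * x₂) * (z₁ * z₂)) * v x₁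
              ≤ (v x₁ ^ 2)⁻¹ * (v x₁ * c₂) * v x₁ := by gcongr
            _ = c₂ := by
              rw [pow_two, mul_inv]
              field_simp
        rw [hm1]
        rcases le_or_gt (v x₂) (v β) with h2 | h2
        · -- Case 2a-i
          have hc : c₂ = v β := max_eq_right h2
          have h12β : v x₁ * v x₂ < v β := by
            calc v x₁ * v x₂ ≤ v x₁ * v β := by gcongr
              _ < 1 * v β := mul_lt_mul_of_pos_right hx₁' hβ
              _ = v β := one_mul _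
          have hv0 : v (x₁ * x₂ - β * (z₁ * z₂)) = v β := by
            rw [Valuation.map_sub_eq_of_lt_right v, hβz']
            rwa [hβz', map_mul]
          rw [hv0] at hpr
          rw [hc] at hs ⊢
          have hp : v ((xp * zm) * (xm * zp)) ≤ (v β / v x₁) ^ 2 := by
            rw [map_mul, evp, evm, hpr]
          obtain ⟨hp1, hp2⟩ := val_le_of_sum_prod_le' v hs hp
          rw [evp] at hp1
          rw [evm] at hp2
          have hpos : 0 < v β / v x₁ := div_pos hβ hx₁0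
          obtain ⟨h3, h4⟩ := eq_of_le_of_mul_eq hpos hp1 hp2 hpr
          have hge : v β ≤ v β / v x₁ := by
            rw [le_div_iff₀ hx₁0]
            exact mul_le_of_le_one_right' hx₁
          rw [h3, h4, max_eq_left hge]
          left
          constructor
          · refine ⟨1, Or.inr ?_⟩
            rw [inv_div, mul_one, show ((2 : ℤ)) = ((2 : ℕ) : ℤ) by rfl, zpow_natCast, pow_two]
            have := hβ.ne'
            field_simp
          · refine ⟨0, Or.inr ?_⟩
            rw [inv_div]; simp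
        · -- Case 2a-ii
          have hc : c₂ = v x₂ := max_eq_left h2.le
          have hx₂0 : 0 < v x₂ := hβ.trans h2
          have hmc' : max (v x₁ * v x₂) (v β) < v x₂ := by
            refine max_lt ?_ h2
            calc v x₁ * v x₂ < 1 * v x₂ := mul_lt_mul_of_pos_right hx₁' hx₂0
              _ = v x₂ := one_mul _
          have hv1' : v (2 * (x₁ * z₂ + x₂ * z₁) * (x₁ * x₂ + β * (z₁ * z₂)) +
            b₂ * (x₁ * x₂) * (z₁ * z₂)) = v x₁ * v x₂ := by
            have eB : v (b₂ * (x₁ * x₂) * (z₁ * z₂)) = v x₁ * v x₂ := by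
              rw [map_mul, map_mul, hb₂, hzz', map_mul, one_mul, mul_one]
            rw [Valuation.map_add_eq_of_lt_right v, eB]
            rw [eB]
            refine hA.trans_lt ?_
            rw [hmaxx]
            exact mul_lt_mul_of_pos_left hmc' hx₁0
          have hs' : v (xp * zm + xm * zp) = v x₂ / v x₁ := by
            rw [e1, map_mul, hv1', hμ', pow_two, mul_inv]
            field_simp
          have hlt : v ((xp * zm) * (xm * zp)) < v (xp * zm + xm * zp) ^ 2 := by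
            rw [map_mul, evp, evm, hpr, hs']
            refine pow_lt_pow_left₀ ?_ zero_le two_ne_zero
            exact (div_lt_div_iff_of_pos_right hx₁0).mpr (hw.trans_lt hmc')
          have hL := sim_L hβ h1 h2 hz₁' hz₂'
          have hor := val_of_sum_prod_lt v hlt
          rw [evp, evm, hs'] at hor
          have hge : v β ≤ v x₂ / v x₁ := by
            rw [le_div_iff₀ hx₁0]
            exact (mul_le_of_le_one_right' hx₁).trans h2.le
          have hsim : Sim (v β) (v x₂ / v x₁) (v x₁ / v x₂) := by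
            refine ⟨0, Or.inr ?_⟩
            rw [inv_div]; simp
          rw [hc]
          rcases hor with h | h
          · have h' : v xm = v (x₁ * x₂ - β * (z₁ * z₂)) ^ 2 / (v x₁ * v x₂) := by
              rw [h] at hpr
              have hne := hx₂0.ne'
              have hne1 := hx₁0.ne'
              have : v xm = (v (x₁ * x₂ - β * (z₁ * z₂)) / v x₁) ^ 2 / (v x₂ / v x₁) := by
                rw [← hpr]; field_simp
              rw [this]; field_simp
            right
            rw [h, h', max_eq_left hge]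
            exact ⟨hsim, hL⟩
          · have h' : v xp = v (x₁ * x₂ - β * (z₁ * z₂)) ^ 2 / (v x₁ * v x₂) := by
              rw [h] at hpr
              have hne := hx₂0.ne'
              have hne1 := hx₁0.ne'
              have : v xp = (v (x₁ * x₂ - β * (z₁ * z₂)) / v x₁) ^ 2 / (v x₂ / v x₁) := by
                rw [← hpr]; field_simp
              rw [this]; field_simp
            left
            rw [h, h', max_eq_left hge]
            exact ⟨hL, hsim⟩

/-- The pair lemma: the components of `P ± Q` in terms of those of `P` and `Q`. -/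
lemma pair_lemma {β b₂ x₁ z₁ x₂ z₂ xp zp xm zm μ : K}
    (hβ : 0 < v β) (hβ1 : v β < 1) (hb₂ : v b₂ = 1)
    (n1 : max (v x₁) (v z₁) = 1) (n2 : max (v x₂) (v z₂) = 1)
    (np : max (v xp) (v zp) = 1) (nm : max (v xm) (v zm) = 1)
    (e0 : xp * xm = μ * (x₁ * x₂ - β * (z₁ * z₂)) ^ 2)
    (e1 : xp * zm + xm * zp = μ * (2 * (x₁ * z₂ + x₂ * z₁) * (x₁ * x₂ + β * (z₁ * z₂)) +
      b₂ * (x₁ * x₂) * (z₁ * z₂)))
    (e2 : zp * zm = μ * (x₁ * z₂ - x₂ * z₁) ^ 2) :
    PairSim (v β) (max (v xp) (v β)) (max (v xm) (v β))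
      (max (v x₁) (v β) * max (v x₂) (v β)) (max (v x₁) (v β) / max (v x₂) (v β)) := by
  rcases le_total (max (v x₂) (v β)) (max (v x₁) (v β)) with h | h
  · exact pair_lemma_aux hβ hβ1 hb₂ n1 n2 np nm e0 e1 e2 h
  · have := pair_lemma_aux hβ hβ1 hb₂ n2 n1 np nm (by rw [e0]; ring) (by rw [e1]; ring)
      (by rw [e2]; ring) h
    rw [mul_comm (max (v x₂) (v β))] at this
    rcases this with ⟨h1, h2⟩ | ⟨h1, h2⟩
    · left; refine ⟨h1, ?_⟩
      rw [← inv_div]; exact h2.inv_right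
    · right; refine ⟨?_, h2⟩
      rw [← inv_div]; exact h1.inv_right

end Val

section Kummer

variable {K G Γ₀ : Type*} [Field K] [AddCommGroup G] [LinearOrderedCommGroupWithZero Γ₀]
variable {b₂ b₄ b₆ b₈ : K} {X Z : G → K}

/-- rescaling of homogeneous coordinates -/
lemma IsKummer.rescale (hK : IsKummer b₂ b₄ b₆ b₈ X Z) (c : G → K) (hc : ∀ P, c P ≠ 0)
    (hneg : ∀ P, c (-P) = c P) :
    IsKummer b₂ b₄ b₆ b₈ (fun P => X P / c P) (fun P => Z P / c P) where
  ne_zero P := by
    rcases hK.ne_zero P with h | h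
    · left; exact div_ne_zero h (hc P)
    · right; exact div_ne_zero h (hc P)
  Z_zero := by simp [hK.Z_zero]
  X_neg P := by simp [hK.X_neg, hneg]
  Z_neg P := by simp [hK.Z_neg, hneg]
  rel P Q := by
    obtain ⟨μ, hμ, e0, e1, e2⟩ := hK.rel P Q
    have hP := hc P
    have hQ := hc Q
    have hp := hc (P + Q)
    have hm := hc (P - Q)
    refine ⟨μ * (c P * c Q) ^ 2 / (c (P + Q) * c (P - Q)), ?_, ?_, ?_, ?_⟩
    · exact div_ne_zero (mul_ne_zero hμ (pow_ne_zero 2 (mul_ne_zero hP hQ)))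
        (mul_ne_zero hp hm)
    · have e : X (P + Q) / c (P + Q) * (X (P - Q) / c (P - Q)) =
        (X (P + Q) * X (P - Q)) / (c (P + Q) * c (P - Q)) := by field_simp
      rw [e, e0]
      simp only [F0]
      field_simp
    · have e : X (P + Q) / c (P + Q) * (Z (P - Q) / c (P - Q)) +
        X (P - Q) / c (P - Q) * (Z (P + Q) / c (P + Q)) =
        (X (P + Q) * Z (P - Q) + X (P - Q) * Z (P + Q)) / (c (P + Q) * c (P - Q)) := by
        field_simp
      rw [e, e1]
      simp only [F1]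
      field_simp
    · have e : Z (P + Q) / c (P + Q) * (Z (P - Q) / c (P - Q)) =
        (Z (P + Q) * Z (P - Q)) / (c (P + Q) * c (P - Q)) := by field_simp
      rw [e, e2]
      simp only [F2]
      field_simp

/-- translation of the `x`-coordinate -/
lemma IsKummer.translate (hK : IsKummer b₂ b₄ b₆ b₈ X Z) (e : K) :
    IsKummer (b₂ + 12 * e) (b₄ + b₂ * e + 6 * e ^ 2) (b₆ + 2 * b₄ * e + b₂ * e ^ 2 + 4 * e ^ 3)
      (b₈ + 3 * b₆ * e + 3 * b₄ * e ^ 2 + b₂ * e ^ 3 + 3 * e ^ 4)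
      (fun P => X P - e * Z P) Z where
  ne_zero P := by
    by_cases hZ : Z P = 0
    · left
      rcases hK.ne_zero P with h | h
      · simpa [hZ] using h
      · exact absurd hZ h
    · right; exact hZ
  Z_zero := hK.Z_zero
  X_neg P := by simp [hK.X_neg, hK.Z_neg]
  Z_neg P := hK.Z_neg P
  rel P Q := by
    obtain ⟨μ, hμ, e0, e1, e2⟩ := hK.rel P Q
    refine ⟨μ, hμ, ?_, ?_, ?_⟩
    · simp only [F0, F1, F2] at *
      linear_combination e0 - e * e1 + e ^ 2 * e2
    · simp only [F0, F1, F2] at *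
      linear_combination e1 - 2 * e * e2
    · simp only [F0, F1, F2] at *
      linear_combination e2

/-- normalising factor -/
noncomputable def nrm (v : Valuation K Γ₀) (X Z : G → K) (P : G) : K :=
  open Classical in if v (Z P) ≤ v (X P) then X P else Z P

lemma nrm_spec (v : Valuation K Γ₀) (hK : IsKummer b₂ b₄ b₆ b₈ X Z) (P : G) :
    nrm v X Z P ≠ 0 ∧ max (v (X P / nrm v X Z P)) (v (Z P / nrm v X Z P)) = 1 := by
  unfold nrm
  split_ifs with h
  · have hX : X P ≠ 0 := by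
      rcases hK.ne_zero P with h1 | h1
      · exact h1
      · intro h2; rw [h2, map_zero] at h
        exact h1 ((v.zero_iff).mp (le_antisymm h zero_le))
    refine ⟨hX, ?_⟩
    rw [div_self hX, map_one, map_div₀]
    apply max_eq_left
    exact (div_le_one₀ (lt_of_le_of_ne zero_le (Ne.symm (v.ne_zero_iff.mpr hX)))).mpr h
  · rw [not_le] at h
    have hZ : Z P ≠ 0 := by
      intro h2; rw [h2, map_zero] at h; exact absurd h (not_lt.mpr zero_le)
    refine ⟨hZ, ?_⟩
    rw [div_self hZ, map_one, map_div₀]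
    apply max_eq_right
    exact (div_le_one₀ (lt_of_le_of_ne zero_le (Ne.symm (v.ne_zero_iff.mpr hZ)))).mpr h.le

/-- the component of a point (up to sign): `max (v x) (v β)` for a normalised `x`-coordinate. -/
noncomputable def comp (v : Valuation K Γ₀) (β : K) (X Z : G → K) (P : G) : Γ₀ :=
  max (v (X P / nrm v X Z P)) (v β)

variable {v : Valuation K Γ₀} {β : K}

lemma comp_pair (hK : IsKummer b₂ (2 * β) 0 (-β ^ 2) X Z) (hβ : 0 < v β) (hβ1 : v β < 1)
    (hb₂ : v b₂ = 1) (P Q : G) :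
    PairSim (v β) (comp v β X Z (P + Q)) (comp v β X Z (P - Q))
      (comp v β X Z P * comp v β X Z Q) (comp v β X Z P / comp v β X Z Q) := by
  have hneg : ∀ P, nrm v X Z (-P) = nrm v X Z P := by
    intro P; unfold nrm; rw [hK.X_neg, hK.Z_neg]
  have hK' := hK.rescale (nrm v X Z) (fun P => (nrm_spec v hK P).1) hneg
  obtain ⟨μ, hμ, e0, e1, e2⟩ := hK'.rel P Q
  refine pair_lemma hβ hβ1 hb₂ (nrm_spec v hK P).2 (nrm_spec v hK Q).2 (nrm_spec v hK (P + Q)).2
    (nrm_spec v hK (P - Q)).2 (μ := μ) ?_ ?_ ?_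
  · rw [e0]; simp only [F0]; ring
  · rw [e1]; simp only [F1]; ring
  · rw [e2]; simp only [F2]; ring

lemma comp_zero (hK : IsKummer b₂ b₄ b₆ b₈ X Z) (hβ1 : v β < 1) : comp v β X Z 0 = 1 := by
  have h0 := hK.ne_zero 0
  have hX : X 0 ≠ 0 := by
    rcases h0 with h | h
    · exact h
    · exact absurd hK.Z_zero h
  unfold comp nrm
  rw [hK.Z_zero, map_zero, if_pos zero_le, div_self hX, map_one]
  exact max_eq_left hβ1.le

lemma comp_nsmul (hK : IsKummer b₂ (2 * β) 0 (-β ^ 2) X Z) (hβ : 0 < v β) (hβ1 : v β < 1)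
    (hb₂ : v b₂ = 1) (P : G) (m : ℕ) :
    Sim (v β) (comp v β X Z (m • P)) (comp v β X Z P ^ m) ∧
    Sim (v β) (comp v β X Z ((m + 1) • P)) (comp v β X Z P ^ (m + 1)) := by
  set c := comp v β X Z P with hc
  have hc0 : c ≠ 0 := (lt_of_lt_of_le hβ (le_max_right _ _)).ne'
  have hg : v β ≠ 0 := hβ.ne'
  induction m with
  | zero =>
    refine ⟨?_, ?_⟩
    · rw [zero_smul, pow_zero, comp_zero hK hβ1]; exact Sim.refl _ _
    · simp only [zero_add, one_smul, pow_one]; rw [← hc]; exact Sim.refl _ _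
  | succ m ih =>
    obtain ⟨ih1, ih2⟩ := ih
    refine ⟨ih2, ?_⟩
    have hpair := comp_pair hK hβ hβ1 hb₂ ((m + 1) • P) P
    rw [← hc] at hpair
    have eadd : (m + 1) • P + P = (m + 1 + 1) • P := (succ_nsmul _ _).symm
    have esub : (m + 1) • P - P = m • P := by rw [succ_nsmul]; abel
    rw [eadd, esub] at hpair
    set q := comp v β X Z ((m + 1) • P) with hq
    set r := comp v β X Z ((m + 1 + 1) • P) with hr
    set s := comp v β X Z (m • P) with hs
    -- `{q * c, q / c} ~ {c ^ (m+2), c ^ m}`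
    have h1 : (Sim (v β) (q * c) (c ^ (m + 1 + 1)) ∧ Sim (v β) (q / c) (c ^ m)) ∨
        (Sim (v β) (q * c) (c ^ m) ∧ Sim (v β) (q / c) (c ^ (m + 1 + 1))) := by
      obtain ⟨k, hk | hk⟩ := ih2
      · left
        constructor
        · refine ⟨k, Or.inl ?_⟩
          rw [pow_succ, hk, mul_right_comm]
        · refine ⟨k, Or.inl ?_⟩
          have : c ^ m = c ^ (m + 1) / c := by rw [pow_succ]; field_simp
          rw [this, hk, div_eq_mul_inv, div_eq_mul_inv, mul_right_comm]
      · right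
        constructor
        · refine ⟨k, Or.inr ?_⟩
          have : c ^ m = c ^ (m + 1) / c := by rw [pow_succ]; field_simp
          rw [this, hk, mul_inv, div_eq_mul_inv, mul_right_comm]
        · refine ⟨k, Or.inr ?_⟩
          rw [pow_succ, hk, inv_div, div_eq_mul_inv, mul_comm c, mul_right_comm]
    -- `{r, s} ~ {c ^ (m+2), c ^ m}`
    have h2 : (Sim (v β) r (c ^ (m + 1 + 1)) ∧ Sim (v β) s (c ^ m)) ∨
        (Sim (v β) r (c ^ m) ∧ Sim (v β) s (c ^ (m + 1 + 1))) := by
      rcases hpair with ⟨p1, p2⟩ | ⟨p1, p2⟩ <;> rcases h1 with ⟨q1, q2⟩ | ⟨q1, q2⟩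
      · left; exact ⟨p1.trans hg q1, p2.trans hg q2⟩
      · right; exact ⟨p1.trans hg q1, p2.trans hg q2⟩
      · right; exact ⟨p1.trans hg q2, p2.trans hg q1⟩
      · left; exact ⟨p1.trans hg q2, p2.trans hg q1⟩
    rcases h2 with ⟨h2, -⟩ | ⟨h2, h3⟩
    · exact h2
    · exact (h2.trans hg (ih1.symm hg)).trans hg h3

/-- the component of a `p`-torsion point if `v β = g₀ ^ p`. -/
lemma comp_torsion (hK : IsKummer b₂ (2 * β) 0 (-β ^ 2) X Z) (hβ : 0 < v β) (hβ1 : v β < 1)
    (hb₂ : v b₂ = 1) {p : ℕ} (hp : Odd p) {g₀ : Γ₀} (hg₀ : v β = g₀ ^ p) {P : G}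
    (hP : p • P = 0) :
    ∃ k : ℕ, 2 * k < p ∧ comp v β X Z P = g₀ ^ (2 * k) := by
  set c := comp v β X Z P with hc
  have hc0 : 0 < c := lt_of_lt_of_le hβ (le_max_right _ _)
  have hp0 : p ≠ 0 := by rintro rfl; simp at hp
  have hg₀0 : g₀ ≠ 0 := by
    rintro rfl
    rw [hg₀, zero_pow hp0] at hβ; exact lt_irrefl _ hβ
  have hg₀pos : 0 < g₀ := lt_of_le_of_ne zero_le (Ne.symm hg₀0)
  have hg₀1 : g₀ < 1 := by
    by_contra h
    rw [not_lt] at h
    rw [hg₀] at hβ1
    exact absurd (one_le_pow_of_one_le' h p) (not_le.mpr hβ1)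
  have hc1 : c ≤ 1 := by
    refine max_le ?_ hβ1.le
    exact (nrm_spec v hK P).2 ▸ le_max_left _ _
  have hcg : g₀ ^ p ≤ c := hg₀ ▸ le_max_right _ _
  have h := (comp_nsmul hK hβ hβ1 hb₂ P p).1
  rw [hP, comp_zero hK hβ1, ← hc] at h
  -- `c ^ p = (g₀ ^ (2k)) ^ p` for some integer `k`
  obtain ⟨k, hk⟩ : ∃ k : ℤ, c ^ p = (g₀ ^ (2 * k)) ^ p := by
    obtain ⟨k, hk | hk⟩ := h
    · refine ⟨k, ?_⟩
      rw [hk, one_mul, hg₀, ← zpow_natCast (g₀ ^ (2 * k)), ← zpow_mul, ← zpow_natCast g₀, ← zpow_mul]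
      congr 1; ring
    · refine ⟨k, ?_⟩
      rw [hk, inv_one, one_mul, hg₀, ← zpow_natCast (g₀ ^ (2 * k)), ← zpow_mul, ← zpow_natCast g₀,
        ← zpow_mul]
      congr 1; ring
  have hk' : c = g₀ ^ (2 * k) := (pow_left_inj₀ zero_le zero_le hp0).mp hk
  -- `0 ≤ 2k`
  have hk0 : 0 ≤ k := by
    by_contra hneg
    rw [not_le] at hneg
    have : 1 < g₀ ^ (2 * k) := by
      exact one_lt_zpow_of_neg₀ hg₀pos hg₀1 (by omega)
    rw [← hk'] at this
    exact absurd hc1 (not_le.mpr this)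
  obtain ⟨n, rfl⟩ := Int.eq_ofNat_of_zero_le hk0
  have hk'' : c = g₀ ^ (2 * n) := by
    rw [hk']
    exact_mod_cast zpow_natCast g₀ (2 * n)
  refine ⟨n, ?_, hk''⟩
  rw [hk''] at hcg
  have hle : 2 * n ≤ p := (pow_le_pow_iff_right_of_lt_one₀ hg₀pos hg₀1).mp hcg
  rcases hle.lt_or_eq with h | h
  · exact h
  · exfalso
    rw [← h] at hp
    exact absurd hp (by simp)

end Kummer

end Fermat.Agent.EC
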