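/-
Multiplicative reduction with `p ∣ v(Δ)`: an automorphism acting trivially on the residue field
acts trivially on the `p`-torsion (`p` odd, prime to the residue characteristic, residue
characteristic odd).
-/
import Fermat.Agent.EC.MultKummer
import Fermat.Agent.EC.Inertia

set_option autoImplicit false

namespace Fermat.Agent.EC

open WeierstrassCurve WeierstrassCurve.Affine WeierstrassCurve.Affine.Point

section Galois

variable {R S K Γ₀ : Type*} [CommRing R] [CommRing S] [Field K] [DecidableEq K]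
  [LinearOrderedCommGroupWithZero Γ₀] [Algebra R S] [Algebra R K] [Algebra S K]
  [IsScalarTower R S K] {v : Valuation K Γ₀} {W' : Affine R}

omit [DecidableEq K] in
/-- a unit square root of a fixed element is fixed, if `2` is a unit. -/
lemma TrivMod.fix_sqrt {σ : K ≃ₐ[S] K} (hσ : TrivMod v σ) (h2 : v (2 : K) = 1) {r U : K}
    (hr : r ^ 2 = U) (hU : v U = 1) (hσU : σ U = U) : σ r = r := by
  have hvr : v r = 1 := by
    have : v r ^ 2 = 1 := by rw [← map_pow, hr, hU]
    exact (pow_eq_one_iff_of_nonneg zero_le two_ne_zero).mp this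
  have h1 : (σ r - r) * (σ r + r) = 0 := by
    have : σ r ^ 2 = r ^ 2 := by rw [← map_pow, hr, hσU]
    linear_combination this
  rcases mul_eq_zero.mp h1 with h | h
  · exact sub_eq_zero.mp h
  · exfalso
    have h3 := hσ.int r hvr.le
    have : σ r - r = -(2 * r) := by linear_combination h
    rw [this, Valuation.map_neg, map_mul, h2, hvr, one_mul] at h3
    exact lt_irrefl _ h3

omit [DecidableEq K] in
/-- translated coordinate numerology: `φ₂ - e ψ₂²` is the duplication numerator for the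
translated coordinate. -/
lemma phi_translate (W : Affine K) (x e : K) :
    (x ^ 4 - W.b₄ * x ^ 2 - 2 * W.b₆ * x - W.b₈) -
      e * (4 * x ^ 3 + W.b₂ * x ^ 2 + 2 * W.b₄ * x + W.b₆) =
    (x - e) ^ 4 - (W.b₄ + W.b₂ * e + 6 * e ^ 2) * (x - e) ^ 2 -
      2 * (W.b₆ + 2 * W.b₄ * e + W.b₂ * e ^ 2 + 4 * e ^ 3) * (x - e) -
      (W.b₈ + 3 * W.b₆ * e + 3 * W.b₄ * e ^ 2 + W.b₂ * e ^ 3 + 3 * e ^ 4) := by
  ring

variable [IsAlgClosed K]

theorem smul_eq_of_mult (hW : IsInt v (W'⁄K)) {e β d : K} (he : v e ≤ 1)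
    (h4 : (W'⁄K).b₄ + (W'⁄K).b₂ * e + 6 * e ^ 2 = 2 * β)
    (h6 : (W'⁄K).b₆ + 2 * (W'⁄K).b₄ * e + (W'⁄K).b₂ * e ^ 2 + 4 * e ^ 3 = 0)
    (h8 : (W'⁄K).b₈ + 3 * (W'⁄K).b₆ * e + 3 * (W'⁄K).b₄ * e ^ 2 + (W'⁄K).b₂ * e ^ 3 +
      3 * e ^ 4 = -β ^ 2)
    (hb₂ : v ((W'⁄K).b₂ + 12 * e) = 1) (hv2 : v (2 : K) = 1)
    {p : ℕ} (hp : Odd p) (hvp : v (p : K) = 1)
    (hd0 : d ≠ 0) (hd1 : v d < 1) (hβ : v β = v d ^ p)
    {σ : K ≃ₐ[S] K} (hσ : TrivMod v σ) (hσe : σ e = e) (hσβ : σ β = β) (hσd : σ d = d)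
    (P : (W'⁄K).Point) (hP : p • P = 0) : σ • P = P := by
  have hp0 : p ≠ 0 := by rintro rfl; simp at hp
  have hvd0 : 0 < v d := lt_of_le_of_ne zero_le (Ne.symm (v.ne_zero_iff.mpr hd0))
  have hβ0 : 0 < v β := by rw [hβ]; exact pow_pos hvd0 p
  have hβ1 : v β < 1 := by rw [hβ]; exact pow_lt_one₀ zero_le hd1 hp0
  have hK := (isKummer (W'⁄K)).translate e
  rw [h4, h6, h8] at hK
  set X : (W'⁄K).Point → K := fun P => xX P - e * xZ P with hX
  set Z : (W'⁄K).Point → K := xZ with hZ
  -- points with trivial component have nonsingular reduction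
  have hns : ∀ T : (W'⁄K).Point, comp v β X Z T = 1 →
      v (xX T) ≤ v (xZ T) → NS v (W'⁄K) (xX T) := by
    intro T hT hle
    rcases T with _ | ⟨x, y, h⟩
    · simp [← zero_def] at hle
    · have hx : v x ≤ 1 := by simpa using hle
      have hxe : v (x - e) = 1 := by
        have h1 : v (x - e) ≤ 1 := (v.map_sub _ _).trans (max_le hx he)
        by_contra hne
        have hlt := lt_of_le_of_ne h1 hne
        have hn : nrm v X Z (.some x y h) = 1 := by
          unfold nrm
          rw [if_neg]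
          · rfl
          · rw [not_le]
            change v (x - e * 1) < v 1
            rw [mul_one, Valuation.map_one]; exact hlt
        have : comp v β X Z (.some x y h) < 1 := by
          unfold comp
          rw [hn, div_one]
          refine max_lt ?_ hβ1
          change v (x - e * 1) < 1
          rwa [mul_one]
        exact absurd hT this.ne
      have hphi := phi_translate (W'⁄K) x e
      rw [h4, h6, h8] at hphi
      have hphi1 : v ((x - e) ^ 4 - 2 * β * (x - e) ^ 2 - 2 * 0 * (x - e) - -β ^ 2) = 1 := by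
        have : (x - e) ^ 4 - 2 * β * (x - e) ^ 2 - 2 * 0 * (x - e) - -β ^ 2 =
          ((x - e) ^ 2 - β) ^ 2 := by ring
        rw [this, map_pow, Valuation.map_sub_eq_of_lt_left v, map_pow, hxe, one_pow, one_pow]
        rw [map_pow, hxe, one_pow]; exact hβ1
      rw [← hphi] at hphi1
      by_contra hcon
      change ¬ NS v (W'⁄K) x at hcon
      rw [NS, not_or] at hcon
      have hx' : x ∈ v.integer := hx
      have i2 : (W'⁄K).b₂ ∈ v.integer := hW.b₂
      have i4 : (W'⁄K).b₄ ∈ v.integer := hW.b₄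
      have i6 : (W'⁄K).b₆ ∈ v.integer := hW.b₆
      have i8 : (W'⁄K).b₈ ∈ v.integer := hW.b₈
      have j2 := ofNat_mem_integer v 2
      have j4 := ofNat_mem_integer v 4
      have hpsi : v (4 * x ^ 3 + (W'⁄K).b₂ * x ^ 2 + 2 * (W'⁄K).b₄ * x + (W'⁄K).b₆) ≤ 1 :=
        add_mem (add_mem (add_mem (mul_mem j4 (pow_mem hx' 3)) (mul_mem i2 (pow_mem hx' 2)))
          (mul_mem (mul_mem j2 i4) hx')) i6
      have hphi' : v (x ^ 4 - (W'⁄K).b₄ * x ^ 2 - 2 * (W'⁄K).b₆ * x - (W'⁄K).b₈) ≤ 1 :=
        sub_mem (sub_mem (sub_mem (pow_mem hx' 4) (mul_mem i4 (pow_mem hx' 2)))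
          (mul_mem (mul_mem j2 i6) hx')) i8
      have k1 := lt_of_le_of_ne hpsi hcon.1
      have k2 := lt_of_le_of_ne hphi' hcon.2
      refine absurd hphi1 (ne_of_lt ((v.map_sub _ _).trans_lt (max_lt k2 ?_)))
      rw [map_mul]
      exact lt_of_le_of_lt (mul_le_of_le_one_left' he) k1
  obtain ⟨k, hk, hck⟩ := comp_torsion (v := v) hK hβ0 hβ1 hb₂ hp hβ hP
  have hcomm : p • (σ • P - P) = 0 := by
    rw [nsmul_sub, hP, sub_zero, smul_comm, hP, smul_zero]
  rcases Nat.eq_zero_or_pos k with rfl | hkpos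
  · rw [mul_zero, pow_zero] at hck
    exact smul_eq_of_ns hW hσ P (hns P hck) hvp hcomm
  · -- nontrivial component : find a fixed point with the same component
    set s := d ^ (2 * k) with hs
    have hvs : v s = v d ^ (2 * k) := by rw [hs, map_pow]
    have hs1 : v s < 1 := by rw [hvs]; exact pow_lt_one₀ zero_le hd1 (by omega)
    have hs0 : s ≠ 0 := pow_ne_zero _ hd0
    have hvs0 : 0 < v s := lt_of_le_of_ne zero_le (Ne.symm (v.ne_zero_iff.mpr hs0))
    have hβs : v β < v s := by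
      rw [hβ, hvs]; exact pow_lt_pow_right_of_lt_one₀ hvd0 hd1 hk
    have hσs : σ s = s := by rw [hs, map_pow, hσd]
    set U := (W'⁄K).b₂ + 12 * e + 4 * s + 4 * β / s with hU
    have hvU : v U = 1 := by
      have hlt : v (4 * s + 4 * β / s) < 1 := by
        have hv4 : v (4 : K) ≤ 1 := by exact_mod_cast val_natCast_le_one v 4
        refine (v.map_add _ _).trans_lt (max_lt ?_ ?_)
        · rw [map_mul]; exact lt_of_le_of_lt (mul_le_of_le_one_left' hv4) hs1
        · rw [mul_div_assoc, map_mul, map_div₀]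
          exact lt_of_le_of_lt (mul_le_of_le_one_left' hv4) ((div_lt_one₀ hvs0).mpr hβs)
      rw [hU, add_assoc, Valuation.map_add_eq_of_lt_left v, hb₂]
      rw [hb₂]; exact hlt
    have hσb₂ : σ (W'⁄K).b₂ = (W'⁄K).b₂ := by
      have : (W'⁄K).b₂ = algebraMap R K W'.b₂ := WeierstrassCurve.map_b₂ _ _
      rw [this, IsScalarTower.algebraMap_apply R S K]; exact σ.commutes _
    have hσ4 : σ 4 = 4 := map_ofNat σ 4
    have hσ12 : σ 12 = 12 := map_ofNat σ 12
    have hσU : σ U = U := by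
      rw [hU]
      simp only [_root_.map_add, map_mul, map_div₀, hσb₂, hσ4, hσ12, hσe, hσs, hσβ]
    obtain ⟨r, hr⟩ := IsAlgClosed.exists_pow_nat_eq U (n := 2) (by norm_num)
    have hσr : σ r = r := hσ.fix_sqrt hv2 hr hvU hσU
    have h20 : (2 : K) ≠ 0 := by rintro h; rw [h, _root_.map_zero] at hv2; exact zero_ne_one hv2
    set x := e + s with hx
    set y := (s * r - (W'⁄K).a₁ * x - (W'⁄K).a₃) / 2 with hy
    have h2y : 2 * y + (W'⁄K).a₁ * x + (W'⁄K).a₃ = s * r := by
      rw [hy]; field_simp; ring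
    have hr0 : r ≠ 0 := by
      rintro rfl
      rw [zero_pow two_ne_zero] at hr
      rw [← hr, _root_.map_zero] at hvU
      exact zero_ne_one hvU
    have heq : (W'⁄K).Equation x y := by
      rw [equation_iff]
      have h40 : (4 : K) ≠ 0 := by
        have : (4 : K) = 2 * 2 := by norm_num
        rw [this]; exact mul_ne_zero h20 h20
      apply mul_left_cancel₀ h40
      have e1 : (2 * y + (W'⁄K).a₁ * x + (W'⁄K).a₃) ^ 2 = s ^ 2 * U := by
        rw [h2y, ← hr]; ring
      have e2 : s ^ 2 * U = s ^ 2 * ((W'⁄K).b₂ + 12 * e + 4 * s) + 2 * s * (2 * β) := by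
        rw [hU]; field_simp; ring
      rw [e2, ← h4] at e1
      have e3 : (W'⁄K).b₂ = (W'⁄K).a₁ ^ 2 + 4 * (W'⁄K).a₂ := rfl
      have e4 : (W'⁄K).b₄ = 2 * (W'⁄K).a₄ + (W'⁄K).a₁ * (W'⁄K).a₃ := rfl
      have e5 : (W'⁄K).b₆ = (W'⁄K).a₃ ^ 2 + 4 * (W'⁄K).a₆ := rfl
      rw [e3, e4] at e1
      rw [e3, e4, e5] at h6
      rw [hx] at e1 ⊢
      linear_combination e1 - h6
    have hnon : (W'⁄K).Nonsingular x y := by
      rw [nonsingular_iff']
      refine ⟨heq, Or.inr ?_⟩
      rw [h2y]
      exact mul_ne_zero hs0 hr0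
    set Q : (W'⁄K).Point := .some x y hnon with hQ
    have hσx : σ x = x := by rw [hx, _root_.map_add, hσe, hσs]
    have hσa₁ : σ (W'⁄K).a₁ = (W'⁄K).a₁ := by
      have : (W'⁄K).a₁ = algebraMap R K W'.a₁ := rfl
      rw [this, IsScalarTower.algebraMap_apply R S K]; exact σ.commutes _
    have hσa₃ : σ (W'⁄K).a₃ = (W'⁄K).a₃ := by
      have : (W'⁄K).a₃ = algebraMap R K W'.a₃ := rfl
      rw [this, IsScalarTower.algebraMap_apply R S K]; exact σ.commutes _
    have hσ2 : σ 2 = 2 := map_ofNat σ 2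
    have hσy : σ y = y := by
      rw [hy]
      simp only [_root_.map_sub, map_mul, map_div₀, hσs, hσr, hσa₁, hσa₃, hσx, hσ2]
    have hσQ : σ • Q = Q := by
      change Point.some (σ x) (σ y) _ = Point.some x y _
      congr
    -- component of `Q`
    have hcQ : comp v β X Z Q = comp v β X Z P := by
      rw [hck, ← hvs]
      have hXQ : X Q = s := by
        change (e + s) - e * 1 = s
        ring
      have hn : nrm v X Z Q = 1 := by
        unfold nrm
        rw [if_neg]
        · rfl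
        · rw [not_le, hXQ]
          change v s < v 1
          rw [Valuation.map_one]; exact hs1
      unfold comp
      rw [hn, div_one, hXQ, max_eq_left hβs.le]
    have hc0 : comp v β X Z P ≠ 0 := (lt_of_lt_of_le hβ0 (le_max_right _ _)).ne'
    have hone : ∀ T : (W'⁄K).Point, Sim (v β) (comp v β X Z T) 1 → comp v β X Z T = 1 := by
      intro T hT
      have hT1 : comp v β X Z T ≤ 1 :=
        max_le ((nrm_spec v hK T).2 ▸ le_max_left _ _) hβ1.le
      have hTβ : v β ≤ comp v β X Z T := le_max_right _ _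
      obtain ⟨j, hj⟩ := hT.symm hβ0.ne'
      have hj' : comp v β X Z T = v β ^ (2 * j) := by
        rcases hj with hj | hj
        · rw [hj, one_mul]
        · rw [hj, inv_one, one_mul]
      have hj0 : 0 ≤ j := by
        by_contra hneg
        rw [not_le] at hneg
        have : 1 < v β ^ (2 * j) := one_lt_zpow_of_neg₀ hβ0 hβ1 (by omega)
        rw [← hj'] at this
        exact absurd hT1 (not_le.mpr this)
      obtain ⟨n, rfl⟩ := Int.eq_ofNat_of_zero_le hj0
      have hj'' : comp v β X Z T = v β ^ (2 * n) := by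
        rw [hj']; exact_mod_cast zpow_natCast (v β) (2 * n)
      rcases Nat.eq_zero_or_pos n with rfl | hn
      · rw [hj'', mul_zero, pow_zero]
      · exfalso
        rw [hj''] at hTβ
        have : v β ^ (2 * n) < v β ^ 1 := pow_lt_pow_right_of_lt_one₀ hβ0 hβ1 (by omega)
        rw [pow_one] at this
        exact absurd hTβ (not_le.mpr this)
    have hpair := comp_pair (v := v) hK hβ0 hβ1 hb₂ P Q
    rw [hcQ, div_self hc0] at hpair
    have hex : comp v β X Z (P + Q) = 1 ∨ comp v β X Z (P - Q) = 1 := by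
      rcases hpair with ⟨-, h⟩ | ⟨h, -⟩
      · right; exact hone _ h
      · left; exact hone _ h
    rcases hex with h | h
    · have e1 : σ • (P + Q) - (P + Q) = σ • P - P := by
        rw [smul_add, hσQ]; abel
      have := smul_eq_of_ns hW hσ (P + Q) (hns _ h) hvp (by rw [e1]; exact hcomm)
      rw [← sub_eq_zero, ← e1, sub_eq_zero]; exact this
    · have e1 : σ • (P - Q) - (P - Q) = σ • P - P := by
        rw [smul_sub, hσQ]; abel
      have := smul_eq_of_ns hW hσ (P - Q) (hns _ h) hvp (by rw [e1]; exact hcomm)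
      rw [← sub_eq_zero, ← e1, sub_eq_zero]; exact this

end Galois

end Fermat.Agent.EC
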