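/-
The Frey curve has no rational point of order `p`: 2-adic argument via the component group.
-/
import Fermat.Agent.EC.MultInertia
import Fermat.Agent.Frob.QbarInst
import Fermat.Agent.Frob.Exists
import Mathlib.FieldTheory.Galois.Infinite

set_option autoImplicit false

namespace Fermat.Agent.EC

open WeierstrassCurve WeierstrassCurve.Affine WeierstrassCurve.Affine.Point

section Val

variable {K Γ₀ : Type*} [Field K] [CharZero K] [LinearOrderedCommGroupWithZero Γ₀]
  {v : Valuation K Γ₀}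

omit [CharZero K] in
lemma val_odd (hv2 : v (2 : K) < 1) {n : ℤ} (hn : ¬ (2 : ℤ) ∣ n) : v (n : K) = 1 := by
  have : (n : K) = 2 * ((n / 2 : ℤ) : K) + 1 := by
    have h : n = 2 * (n / 2) + 1 := by omega
    conv_lhs => rw [h]
    push_cast; ring
  rw [this, Valuation.map_add_eq_of_lt_right v, Valuation.map_one]
  rw [Valuation.map_one, map_mul]
  exact lt_of_le_of_lt (mul_le_of_le_one_right' (val_intCast_le_one v _)) hv2

omit [CharZero K] in
lemma val_even (hv2 : v (2 : K) < 1) {n : ℤ} (hn : (2 : ℤ) ∣ n) : v (n : K) < 1 := by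
  obtain ⟨m, rfl⟩ := hn
  push_cast
  rw [map_mul]
  exact lt_of_le_of_lt (mul_le_of_le_one_right' (val_intCast_le_one v _)) hv2

omit [CharZero K] in
/-- the valuation of a nonzero integer is a power of `v 2`. -/
lemma val_int_eq_pow (hv2 : v (2 : K) < 1) {n : ℤ} (hn : n ≠ 0) :
    ∃ (k : ℕ) (m : ℤ), n = 2 ^ k * m ∧ ¬ (2 : ℤ) ∣ m ∧ v (n : K) = v (2 : K) ^ k := by
  have hfin : FiniteMultiplicity (2 : ℤ) n := Int.finiteMultiplicity_iff.mpr ⟨by norm_num, hn⟩
  obtain ⟨m, hm, hm'⟩ := hfin.exists_eq_pow_mul_and_not_dvd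
  refine ⟨multiplicity 2 n, m, hm, hm', ?_⟩
  have h2 : v (n : K) = v ((2 ^ (multiplicity 2 n) * m : ℤ) : K) := congrArg (fun z : ℤ => v (z : K)) hm
  rw [h2]
  push_cast
  rw [map_mul, map_pow, val_odd hv2 hm', mul_one]

omit [CharZero K] in
lemma rat_cast_eq [Algebra ℚ K] (r : ℚ) :
    algebraMap ℚ K r = (r.num : K) / ((r.den : ℤ) : K) := by
  conv_lhs => rw [← Rat.num_div_den r]
  simp

lemma val_rat_eq_zpow [Algebra ℚ K] (hv2 : v (2 : K) < 1) {r : ℚ} (hr : r ≠ 0) :
    ∃ k : ℤ, v (algebraMap ℚ K r) = v (2 : K) ^ k := by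
  have hnum : r.num ≠ 0 := Rat.num_ne_zero.mpr hr
  have hden : (r.den : ℤ) ≠ 0 := by exact_mod_cast r.den_ne_zero
  obtain ⟨k, -, -, -, h1⟩ := val_int_eq_pow (v := v) hv2 hnum
  obtain ⟨l, -, -, -, h2⟩ := val_int_eq_pow (v := v) hv2 hden
  have h20 : v (2 : K) ≠ 0 := by
    rw [Valuation.ne_zero_iff]; exact two_ne_zero
  refine ⟨(k : ℤ) - l, ?_⟩
  rw [rat_cast_eq, map_div₀, h1, h2, zpow_sub₀ h20, zpow_natCast, zpow_natCast]

/-- a rational number which is a unit at 2 is congruent to 1 mod 2. -/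
lemma val_rat_sub_one [Algebra ℚ K] (hv2 : v (2 : K) < 1) {r : ℚ}
    (hr : v (algebraMap ℚ K r) = 1) : v (algebraMap ℚ K r - 1) < 1 := by
  have hco : Int.gcd r.num r.den = 1 := by
    have := r.reduced
    rw [Int.gcd_def]
    simpa using this
  have hden0 : ((r.den : ℤ) : K) ≠ 0 := by exact_mod_cast r.den_ne_zero
  have h1 : v (r.num : K) = v ((r.den : ℤ) : K) := by
    rw [rat_cast_eq, map_div₀, div_eq_one_iff_eq] at hr
    · exact hr
    · exact (v.ne_zero_iff).mpr hden0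
  have hden : ¬ (2 : ℤ) ∣ (r.den : ℤ) := by
    intro hd
    have hlt := val_even hv2 hd
    rw [← h1] at hlt
    have hn : (2 : ℤ) ∣ r.num := by
      by_contra hn
      rw [val_odd hv2 hn] at hlt
      exact lt_irrefl _ hlt
    have := Int.dvd_coe_gcd hn hd
    rw [hco] at this
    norm_num at this
  have hvden := val_odd hv2 hden
  have hnum : ¬ (2 : ℤ) ∣ r.num := by
    intro hn
    have := val_even hv2 hn
    rw [h1, hvden] at this
    exact lt_irrefl _ this
  have hsub : (2 : ℤ) ∣ r.num - r.den := by omega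
  have hvsub := val_even hv2 hsub
  have e : algebraMap ℚ K r - 1 = ((r.num - r.den : ℤ) : K) / ((r.den : ℤ) : K) := by
    rw [rat_cast_eq]
    field_simp
    push_cast
    ring
  rw [e, map_div₀, hvden, div_one]
  exact hvsub

end Val

theorem frey_no_rational_torsion (P : FreyPackage)
    (x : (P.freyCurve⁄(AlgebraicClosure ℚ)).Point) (hx : P.p • x = 0)
    (hfix : ∀ σ : AlgebraicClosure ℚ ≃ₐ[ℚ] AlgebraicClosure ℚ, σ • x = x) : x = 0 := by
  set K := AlgebraicClosure ℚ with hKdef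
  obtain ⟨A, hA⟩ := Fermat.Agent.Frob.exists_liesOverPrime K Nat.prime_two
  set v := A.valuation with hvdef
  have hv2 : v (2 : K) < 1 := by exact_mod_cast A.mem_nonunits_iff.mp hA
  have h20 : (2 : K) ≠ 0 := two_ne_zero
  have hv20 : v (2 : K) ≠ 0 := (v.ne_zero_iff).mpr h20
  have hv2pos : 0 < v (2 : K) := lt_of_le_of_ne zero_le (Ne.symm hv20)
  -- arithmetic of the Frey package
  have hbeven : (2 : ℤ) ∣ P.b := (ZMod.intCast_zmod_eq_zero_iff_dvd P.b 2).mp P.hb2
  have haodd : ¬ (2 : ℤ) ∣ P.a := by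
    intro h
    have h3 := dvd_gcd h hbeven
    rw [P.hgcdab] at h3
    norm_num at h3
  have hp5 := P.hp5
  have hpp := P.pp
  have hp0 : P.p ≠ 0 := P.hp0
  have hpodd : ¬ (2 : ℤ) ∣ (P.p : ℤ) := by
    obtain ⟨m, hm⟩ := P.hp_odd
    omega
  have hvp : v ((P.p : ℕ) : K) = 1 := by exact_mod_cast val_odd hv2 hpodd
  obtain ⟨k₀, b', hb, hb', hvb⟩ := val_int_eq_pow (v := v) hv2 P.hb0
  have hk₀ : 1 ≤ k₀ := by
    rcases Nat.eq_zero_or_pos k₀ with h | h
    · rw [h, pow_zero, one_mul] at hb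
      rw [hb] at hbeven
      exact absurd hbeven hb'
    · exact h
  have hva : v (P.a : K) = 1 := val_odd hv2 haodd
  set a : K := (P.a : K) with ha
  set b : K := (P.b : K) with hbdef
  have ha0 : a ≠ 0 := by rw [ha]; exact_mod_cast P.ha0
  have hb0 : b ≠ 0 := by rw [hbdef]; exact_mod_cast P.hb0
  -- coefficients
  have ea₁ : (P.freyCurve⁄K).a₁ = 1 := by
    change algebraMap ℚ K 1 = 1
    simp
  have ea₂ : (P.freyCurve⁄K).a₂ = (b ^ P.p - 1 - a ^ P.p) / 4 := by
    change algebraMap ℚ K (((P.b : ℚ) ^ P.p - 1 - (P.a : ℚ) ^ P.p) / 4) = _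
    simp [ha, hbdef]
  have ea₃ : (P.freyCurve⁄K).a₃ = 0 := by
    change algebraMap ℚ K 0 = 0
    simp
  have ea₄ : (P.freyCurve⁄K).a₄ = -(a ^ P.p) * (b ^ P.p) / 16 := by
    change algebraMap ℚ K (-((P.a : ℚ) ^ P.p) * ((P.b : ℚ) ^ P.p) / 16) = _
    simp only [ha, hbdef, map_div₀, map_mul, map_neg, map_pow, map_intCast, map_ofNat]
  have ea₆ : (P.freyCurve⁄K).a₆ = 0 := by
    change algebraMap ℚ K 0 = 0
    simp
  set β : K := -(a ^ P.p) * (b ^ P.p) / 16 with hβdef
  have eb₂ : (P.freyCurve⁄K).b₂ = b ^ P.p - a ^ P.p := by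
    rw [WeierstrassCurve.b₂, ea₁, ea₂]; ring
  have eb₄ : (P.freyCurve⁄K).b₄ = 2 * β := by
    rw [WeierstrassCurve.b₄, ea₁, ea₃, ea₄]; ring
  have eb₆ : (P.freyCurve⁄K).b₆ = 0 := by
    rw [WeierstrassCurve.b₆, ea₃, ea₆]; ring
  have eb₈ : (P.freyCurve⁄K).b₈ = -β ^ 2 := by
    rw [WeierstrassCurve.b₈, ea₁, ea₂, ea₃, ea₄, ea₆]; ring
  have hK := isKummer (P.freyCurve⁄K)
  rw [eb₄, eb₆, eb₈] at hK
  -- valuations
  have hn4 : 4 < P.p * k₀ := by nlinarith
  obtain ⟨n, hn⟩ : ∃ n : ℕ, P.p * k₀ = n + 4 := ⟨P.p * k₀ - 4, by omega⟩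
  have hnpos : 0 < n := by omega
  have hvβ : v β = v (2 : K) ^ n := by
    have h16 : (16 : K) = 2 ^ 4 := by norm_num
    rw [hβdef, map_div₀, map_mul, Valuation.map_neg, map_pow, map_pow, hva, one_pow, one_mul,
      hvb, h16, map_pow, ← pow_mul, mul_comm k₀, hn, pow_add, mul_div_assoc,
      div_self (pow_ne_zero 4 hv20), mul_one]
  have hβ0 : 0 < v β := by rw [hvβ]; exact pow_pos hv2pos n
  have hβ1 : v β < 1 := by rw [hvβ]; exact pow_lt_one₀ zero_le hv2 hnpos.ne'
  have hvb1 : v b < 1 := by rw [hbdef]; exact val_even hv2 hbeven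
  have hb₂ : v (P.freyCurve⁄K).b₂ = 1 := by
    rw [eb₂, Valuation.map_sub_eq_of_lt_right v, map_pow, hva, one_pow]
    rw [map_pow, map_pow, hva, one_pow]
    exact pow_lt_one₀ zero_le hvb1 hp0
  have hW : IsInt v (P.freyCurve⁄K) := by
    refine ⟨?_, ?_, ?_, ?_, ?_⟩
    · rw [ea₁, _root_.map_one]
    · -- `a₂` is an integer
      have h4 : (4 : ℤ) ∣ P.b ^ P.p - 1 - P.a ^ P.p := by
        have hb4 : (4 : ℤ) ∣ P.b ^ P.p := by
          have : (2 : ℤ) ^ 2 ∣ P.b ^ P.p :=
            (pow_dvd_pow_of_dvd hbeven 2).trans (pow_dvd_pow _ (by omega))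
          simpa using this
        have ha4 : (4 : ℤ) ∣ 1 + P.a ^ P.p := by
          have h3 : (P.a : ZMod 4) = 3 := P.ha4
          have : ((1 + P.a ^ P.p : ℤ) : ZMod 4) = 0 := by
            push_cast
            rw [h3]
            obtain ⟨m, hm⟩ := P.hp_odd
            rw [hm, pow_succ, pow_mul]
            have : (3 : ZMod 4) ^ 2 = 1 := by decide
            rw [this, one_pow, one_mul]
            decide
          exact_mod_cast (ZMod.intCast_zmod_eq_zero_iff_dvd _ 4).mp this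
        have : P.b ^ P.p - 1 - P.a ^ P.p = P.b ^ P.p - (1 + P.a ^ P.p) := by ring
        rw [this]
        exact dvd_sub hb4 ha4
      obtain ⟨c, hc⟩ := h4
      have : (P.freyCurve⁄K).a₂ = (c : K) := by
        rw [ea₂]
        have h5 : b ^ P.p - 1 - a ^ P.p = 4 * (c : K) := by
          have h6 : ((P.b ^ P.p - 1 - P.a ^ P.p : ℤ) : K) = ((4 * c : ℤ) : K) := by rw [hc]
          have h7 : ((4 * c : ℤ) : K) = 4 * (c : K) := by
            rw [Int.cast_mul]; norm_num
          rw [h7] at h6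
          rw [← h6, ha, hbdef]
          push_cast
          ring
        rw [h5, mul_div_cancel_left₀ _ (by norm_num : (4 : K) ≠ 0)]
      rw [this]
      exact val_intCast_le_one v c
    · rw [ea₃, _root_.map_zero]; exact zero_le
    · rw [ea₄]; exact hβ1.le
    · rw [ea₆, _root_.map_zero]; exact zero_le
  -- the point
  rcases x with _ | ⟨X, Y, hXY⟩
  · rfl
  set Q : (P.freyCurve⁄K).Point := .some X Y hXY with hQ
  have hXfix : ∀ σ : K ≃ₐ[ℚ] K, σ X = X := by
    intro σ
    have h := congrArg xX (hfix σ)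
    exact h
  obtain ⟨r, hr⟩ : ∃ r : ℚ, algebraMap ℚ K r = X :=
    (InfiniteGalois.mem_range_algebraMap_iff_fixed (k := ℚ) (K := K) X).mpr hXfix
  rcases lt_trichotomy (v X) 1 with hX1 | hX1 | hX1
  · -- nontrivial component: contradiction
    exfalso
    have hnrm : nrm v (xX (W := P.freyCurve⁄K)) xZ Q = 1 := by
      unfold nrm
      rw [if_neg]
      · rfl
      · rw [not_le]
        change v X < v 1
        rw [Valuation.map_one]; exact hX1
    have hcomp : comp v β (xX (W := P.freyCurve⁄K)) xZ Q = max (v X) (v β) := by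
      unfold comp
      rw [hnrm, div_one]
      rfl
    obtain ⟨m, hm0, hmn, hm⟩ : ∃ m : ℤ, 0 < m ∧ m ≤ n ∧
        comp v β (xX (W := P.freyCurve⁄K)) xZ Q = v (2 : K) ^ m := by
      rw [hcomp]
      rcases le_or_gt (v X) (v β) with h | h
      · refine ⟨n, by exact_mod_cast hnpos, le_rfl, ?_⟩
        rw [max_eq_right h, hvβ, zpow_natCast]
      · rw [max_eq_left h.le]
        have hX0 : r ≠ 0 := by
          rintro rfl
          rw [← hr, _root_.map_zero, _root_.map_zero] at h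
          exact absurd h (not_lt.mpr zero_le)
        obtain ⟨j, hj⟩ := val_rat_eq_zpow (v := v) hv2 hX0
        rw [hr] at hj
        refine ⟨j, ?_, ?_, hj⟩
        · rw [hj] at hX1
          by_contra hcon
          rw [not_lt] at hcon
          exact absurd hX1 (not_lt.mpr (one_le_zpow_of_nonpos₀ hv2pos hv2.le hcon))
        · rw [hj, hvβ, ← zpow_natCast] at h
          exact ((zpow_lt_zpow_iff_right_of_lt_one₀ hv2pos hv2).mp h).le
    have hsim := (comp_nsmul (v := v) hK hβ0 hβ1 hb₂ Q P.p).1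
    rw [hx, comp_zero hK hβ1] at hsim
    obtain ⟨k, hk⟩ : ∃ k : ℤ, comp v β (xX (W := P.freyCurve⁄K)) xZ Q ^ P.p = v β ^ (2 * k) := by
      obtain ⟨k, hk | hk⟩ := hsim
      · exact ⟨k, by rw [hk, one_mul]⟩
      · exact ⟨k, by rw [hk, inv_one, one_mul]⟩
    rw [hm, hvβ, ← zpow_natCast, ← zpow_natCast, ← zpow_mul, ← zpow_mul] at hk
    have hinj : (m : ℤ) * (P.p : ℤ) = (n : ℤ) * (2 * k) := zpow_right_injective₀ hv2pos hv2.ne hk
    -- m * p = n * (2 * k)
    have hpk : (P.p : ℤ) ∣ 8 * k := by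
      have e : (n : ℤ) = P.p * k₀ - 4 := by
        have : ((P.p * k₀ : ℕ) : ℤ) = ((n + 4 : ℕ) : ℤ) := by exact_mod_cast hn
        push_cast at this
        linarith
      refine ⟨2 * k₀ * k - m, ?_⟩
      rw [e] at hinj
      linarith
    have hp' : Prime (P.p : ℤ) := Nat.prime_iff_prime_int.mp hpp
    have hpk' : (P.p : ℤ) ∣ k := by
      rcases hp'.dvd_or_dvd hpk with h | h
      · exfalso
        have h8 : P.p ∣ 2 ^ 3 := by exact_mod_cast h
        have := (Nat.prime_dvd_prime_iff_eq hpp Nat.prime_two).mp (hpp.dvd_of_dvd_pow h8)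
        omega
      · exact h
    obtain ⟨k', rfl⟩ := hpk'
    have hpZ : (P.p : ℤ) ≠ 0 := by exact_mod_cast hp0
    have hm2 : m = 2 * k' * n := by
      apply mul_right_cancel₀ hpZ
      rw [hinj]; ring
    have hnZ : (0 : ℤ) < n := by exact_mod_cast hnpos
    have hk'pos : 0 < k' := by
      by_contra hcon
      rw [not_lt] at hcon
      have : m ≤ 0 := by rw [hm2]; nlinarith
      omega
    have : m ≥ 2 * n := by rw [hm2]; nlinarith
    omega
  · -- unit x-coordinate : `3 Q` in the kernel of reduction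
    have h2K : v (4 : K) < 1 := by
      have : (4 : K) = 2 * 2 := by norm_num
      rw [this, map_mul]
      exact mul_lt_one_of_nonneg_of_lt_one_left zero_le hv2 hv2.le
    obtain ⟨μ, hμ, e0, e1, -⟩ := hK.rel Q Q
    rw [sub_self] at e0 e1
    have hQX : xX Q = X := rfl
    have hQZ : xZ Q = 1 := rfl
    rw [xX_zero, mul_one, hQX, hQZ] at e0
    rw [xX_zero, xZ_zero, mul_zero, zero_add, one_mul, hQX, hQZ] at e1
    have f0 : F0 (2 * β) 0 (-β ^ 2) (X * X) (X * 1 + X * 1) (1 * 1) = (X ^ 2 - β) ^ 2 := by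
      simp only [F0]; ring
    have f1 : F1 (P.freyCurve⁄K).b₂ (2 * β) 0 (X * X) (X * 1 + X * 1) (1 * 1) =
        (P.freyCurve⁄K).b₂ * X ^ 2 + 4 * (X ^ 3 + β * X) := by
      simp only [F1]; ring
    have vf0 : v ((X ^ 2 - β) ^ 2) = 1 := by
      rw [map_pow, Valuation.map_sub_eq_of_lt_left v, map_pow, hX1, one_pow, one_pow]
      rw [map_pow, hX1, one_pow]; exact hβ1
    have vf1 : v ((P.freyCurve⁄K).b₂ * X ^ 2 + 4 * (X ^ 3 + β * X)) = 1 := by
      have hlt : v (4 * (X ^ 3 + β * X)) < 1 := by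
        rw [map_mul]
        refine lt_of_le_of_lt (mul_le_of_le_one_right' ?_) h2K
        refine (v.map_add _ _).trans (max_le ?_ ?_)
        · rw [map_pow, hX1, one_pow]
        · rw [map_mul, hX1, mul_one]; exact hβ1.le
      rw [Valuation.map_add_eq_of_lt_left v, map_mul, hb₂, map_pow, hX1, one_pow, one_mul]
      rw [map_mul v _ (X ^ 2), hb₂, map_pow, hX1, one_pow, one_mul]
      exact hlt
    rw [f0] at e0
    rw [f1] at e1
    -- x-coordinate of `2Q`
    have hZ2 : xZ (Q + Q) = 1 := by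
      have hne : xZ (Q + Q) ≠ 0 := by
        rw [e1]
        refine mul_ne_zero hμ ?_
        intro h; rw [h, _root_.map_zero] at vf1; exact zero_ne_one vf1
      rcases hQQ : Q + Q with _ | ⟨x2, y2, h2⟩
      · rw [hQQ] at hne; exact absurd rfl hne
      · rfl
    have hvμ : v μ = 1 := by
      have := congrArg v e1
      rw [hZ2, Valuation.map_one, map_mul, vf1, mul_one] at this
      exact this.symm
    have hvX2 : v (xX (Q + Q)) = 1 := by rw [e0, map_mul, hvμ, vf0, one_mul]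
    have hQQfix : ∀ σ : K ≃ₐ[ℚ] K, σ • (Q + Q) = Q + Q := by
      intro σ
      have h := (Point.map (W' := P.freyCurve) σ.toAlgHom).map_add Q Q
      have h2 : Point.map (W' := P.freyCurve) σ.toAlgHom Q = Q := hfix σ
      rw [h2] at h
      exact h
    obtain ⟨r₂, hr₂⟩ : ∃ r₂ : ℚ, algebraMap ℚ K r₂ = xX (Q + Q) := by
      rcases hQQ : Q + Q with _ | ⟨x2, y2, h2⟩
      · exact ⟨1, by simp [← zero_def]⟩
      · refine (InfiniteGalois.mem_range_algebraMap_iff_fixed (k := ℚ) (K := K) x2).mpr ?_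
        intro σ
        have h := hQQfix σ
        rw [hQQ] at h
        exact congrArg xX h
    have hdiff : v (xX (Q + Q) - X) < 1 := by
      have e : xX (Q + Q) - X = (algebraMap ℚ K r₂ - 1) - (algebraMap ℚ K r - 1) := by
        rw [hr₂, hr]; ring
      rw [e]
      refine (v.map_sub _ _).trans_lt (max_lt ?_ ?_)
      · exact val_rat_sub_one hv2 (by rw [hr₂]; exact hvX2)
      · exact val_rat_sub_one hv2 (by rw [hr]; exact hX1)
    -- relation for `(2Q, Q)`
    obtain ⟨μ', hμ', e0', -, e2'⟩ := hK.rel (Q + Q) Q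
    have hsub : Q + Q - Q = Q := by abel
    rw [hsub, hQX, hQZ, hZ2] at e0' e2'
    have f0' : F0 (2 * β) 0 (-β ^ 2) (xX (Q + Q) * X) (xX (Q + Q) * 1 + X * 1) (1 * 1) =
        (xX (Q + Q) * X - β) ^ 2 := by
      simp only [F0]; ring
    have f2' : F2 (xX (Q + Q) * X) (xX (Q + Q) * 1 + X * 1) (1 * 1) =
        (xX (Q + Q) - X) ^ 2 := by
      simp only [F2]; ring
    rw [f0'] at e0'
    rw [f2', mul_one] at e2'
    have vf0' : v ((xX (Q + Q) * X - β) ^ 2) = 1 := by
      rw [map_pow, Valuation.map_sub_eq_of_lt_left v, map_mul, hvX2, hX1, one_mul, one_pow]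
      rw [map_mul, hvX2, hX1, one_mul]; exact hβ1
    have hvX3 : v (xX (Q + Q + Q)) = v μ' := by
      have := congrArg v e0'
      rw [map_mul, hX1, mul_one, map_mul, vf0', mul_one] at this
      exact this
    have hvμ' : 0 < v μ' := lt_of_le_of_ne zero_le (Ne.symm ((v.ne_zero_iff).mpr hμ'))
    have hE1 : InE1 v (xX (W := P.freyCurve⁄K)) xZ (Q + Q + Q) := by
      unfold InE1
      rw [e2', hvX3, map_mul, map_pow]
      calc v μ' * v (xX (Q + Q) - X) ^ 2 < v μ' * 1 :=
            mul_lt_mul_of_pos_left (pow_lt_one₀ zero_le hdiff two_ne_zero) hvμ'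
        _ = v μ' := mul_one _
    have h3 : Q + Q + Q = 3 • Q := by
      rw [succ_nsmul, two_nsmul]
    have h3Q : Q + Q + Q = 0 := by
      refine hW.eq_zero_of_inE1 hE1 hvp ?_
      rw [h3, smul_comm, hx, smul_zero]
    rw [h3] at h3Q
    have hco : Nat.Coprime 3 P.p := (Nat.coprime_primes Nat.prime_three hpp).mpr (by omega)
    have hord1 : addOrderOf Q ∣ 3 := addOrderOf_dvd_of_nsmul_eq_zero h3Q
    have hord2 : addOrderOf Q ∣ P.p := addOrderOf_dvd_of_nsmul_eq_zero hx
    have hord : addOrderOf Q = 1 := Nat.dvd_one.mp (hco ▸ Nat.dvd_gcd hord1 hord2)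
    exact AddMonoid.addOrderOf_eq_one_iff.mp hord
  · -- kernel of reduction
    refine hW.eq_zero_of_inE1 (v := v) ?_ hvp hx
    change v 1 < v X
    rw [Valuation.map_one]; exact hX1

end Fermat.Agent.EC
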